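import Fermat.Agent.S48.An1.Model
import Fermat.Agent.ES.An.MkMF
import Fermat.Agent.S24.Sturm.Kernel
import Fermat.Prelude.Thm_ModularForm_sturm_bound_of_isArithmetic

/-!
# S48 / X1 : modular forms on an arbitrary subgroup `Γ ≤ SL₂(ℤ)` of finite index (vocabulary)
TASK S48/X1-Forms.

PORT of `S24/Sturm/Forms.lean` (section `closure`, `isMF_Bd_pow_mul_jd_pow`), `S24/Sturm/Kernel.lean` (`IsMF.mem_HolCusp`),
`ES/An/MkMF.lean` (`isMF_of`, `IsMF_slash_eq`, `IsMF_bdd_slash`) with `Γ₀(N)` replaced by `Γ`: copy the proofs.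
The generic lemmas of `ES/An/MkMF.lean` (`slash_pow`, `mdiff_slash`, `slHol`, `cmpHol_mul_slHol`, `bdd_of_pow`, ...) are imported.
-/

set_option autoImplicit false

open AlgebraicCurve ModularCurve UpperHalfPlane ModularForm Filter Topology
open scoped MatrixGroups IntermediateField Manifold

namespace Fermat.Agent.S48.X1

open Fermat.Agent.S24 Fermat.Agent.ES.An

noncomputable section

/-- `Γ` as a subgroup of `GL₂(ℝ)`. -/
abbrev GR (Γ : Subgroup SL(2, ℤ)) : Subgroup (GL (Fin 2) ℝ) :=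
  Subgroup.map (Matrix.SpecialLinearGroup.mapGL ℝ) Γ

/-- `F` is the underlying function of a modular form of weight `k` on `Γ`. -/
def IsMF (Γ : Subgroup SL(2, ℤ)) (k : ℤ) (F : ℍ → ℂ) : Prop :=
  ∃ f : ModularForm (GR Γ) k, ⇑f = F

variable {Γ : Subgroup SL(2, ℤ)}

theorem IsMF.add {k : ℤ} {F G : ℍ → ℂ} (hF : IsMF Γ k F) (hG : IsMF Γ k G) : IsMF Γ k (F + G) := by
  obtain ⟨f, rfl⟩ := hF
  obtain ⟨g, rfl⟩ := hG
  exact ⟨f + g, rfl⟩

theorem IsMF.zero (k : ℤ) : IsMF Γ k 0 := by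
  exact ⟨0, rfl⟩

theorem IsMF.cast {k k' : ℤ} {F : ℍ → ℂ} (h : k = k') (hF : IsMF Γ k F) : IsMF Γ k' F := h ▸ hF

theorem IsMF.one : IsMF Γ 0 1 := by
  exact ⟨1, one_coe_eq_one⟩

theorem IsMF.mul {k k' : ℤ} {F G : ℍ → ℂ} (hF : IsMF Γ k F) (hG : IsMF Γ k' G) :
    IsMF Γ (k + k') (F * G) := by
  obtain ⟨f, rfl⟩ := hF
  obtain ⟨g, rfl⟩ := hG
  exact ⟨f.mul g, rfl⟩

theorem IsMF.smul {k : ℤ} {F : ℍ → ℂ} (c : ℂ) (hF : IsMF Γ k F) : IsMF Γ k (c • F) := by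
  obtain ⟨f, rfl⟩ := hF
  exact ⟨c • f, rfl⟩

theorem IsMF.pow {k : ℤ} {F : ℍ → ℂ} (hF : IsMF Γ k F) (n : ℕ) : IsMF Γ (k * n) (F ^ n) := by
  induction n with
  | zero => simpa using IsMF.one
  | succ n ih =>
    rw [pow_succ]
    exact (ih.mul hF).cast (by push_cast; ring)

/-- products of modular forms of arbitrary weights (`ES/An/SturmDep.lean : isMF_prod`). -/
theorem IsMF.prod {ι : Type*} {k : ι → ℤ} {F : ι → ℍ → ℂ} (s : Finset ι)
    (hF : ∀ i ∈ s, IsMF Γ (k i) (F i)) : IsMF Γ (∑ i ∈ s, k i) (∏ i ∈ s, F i) := by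
  classical
  induction s using Finset.induction_on with
  | empty => simpa using IsMF.one
  | insert a s ha ih =>
    rw [Finset.prod_insert ha, Finset.sum_insert ha]
    exact (hF a (Finset.mem_insert_self a s)).mul
      (ih fun i hi => hF i (Finset.mem_insert_of_mem hi))

theorem IsMF.sum {ι : Type*} {k : ℤ} {F : ι → ℍ → ℂ} (s : Finset ι)
    (hF : ∀ i ∈ s, IsMF Γ k (F i)) : IsMF Γ k (∑ i ∈ s, F i) := by
  classical
  induction s using Finset.induction_on with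
  | empty => simpa using IsMF.zero k
  | insert a s ha ih =>
    rw [Finset.sum_insert ha]
    exact (hF a (Finset.mem_insert_self a s)).add
      (ih fun i hi => hF i (Finset.mem_insert_of_mem hi))

theorem IsMF.mdiff {k : ℤ} {F : ℍ → ℂ} (hF : IsMF Γ k F) : MDiff F := by
  obtain ⟨f, rfl⟩ := hF
  exact f.holo'

theorem one_mem_strictPeriods (hT : ModularGroup.T ∈ Γ) : (1 : ℝ) ∈ (GR Γ).strictPeriods := by
  rw [Subgroup.mem_strictPeriods_iff]
  refine ⟨ModularGroup.T, hT, ?_⟩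
  apply Units.ext
  rw [Matrix.SpecialLinearGroup.mapGL_coe_matrix]
  ext i j
  fin_cases i <;> fin_cases j <;> simp [ModularGroup.coe_T]

theorem IsMF.periodic (hT : ModularGroup.T ∈ Γ) {k : ℤ} {F : ℍ → ℂ} (hF : IsMF Γ k F) :
    Function.Periodic (F ∘ ofComplex) (((1 : ℕ) : ℝ) : ℂ) := by
  obtain ⟨f, rfl⟩ := hF
  have := SlashInvariantFormClass.periodic_comp_ofComplex f (one_mem_strictPeriods hT)
  simpa using this

theorem IsMF.bounded [Γ.FiniteIndex] {k : ℤ} {F : ℍ → ℂ} (hF : IsMF Γ k F) :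
    IsBoundedAtImInfty F := by
  obtain ⟨f, rfl⟩ := hF
  exact ModularFormClass.bdd_at_infty f

theorem IsMF.mem_HolCusp [Γ.FiniteIndex] (hT : ModularGroup.T ∈ Γ) {k : ℤ} {F : ℍ → ℂ}
    (hF : IsMF Γ k F) : F ∈ HolCusp 1 := by
  exact ⟨hF.mdiff, hF.periodic hT, 0, by simpa using hF.bounded⟩

/-- level one forms are forms on `Γ` (as `S23.IsMF.of_levelOne`). -/
theorem IsMF.of_levelOne {k : ℤ} (f : ModularForm 𝒮ℒ k) : IsMF Γ k f := by
  have hle : GR Γ ≤ 𝒮ℒ := by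
    rintro _ ⟨γ, _, rfl⟩
    exact ⟨γ, rfl⟩
  exact ⟨{ toFun := f
           slash_action_eq' := fun γ hγ => f.slash_action_eq' γ (hle hγ)
           holo' := f.holo'
           bdd_at_cusps' := fun hc => f.bdd_at_cusps' (hc.mono hle) }, rfl⟩

theorem isMF_Ad : IsMF Γ 12 (Sturm.Ad 1) := by
  have h := ((IsMF.of_levelOne (Γ := Γ) E₄).pow 3).cast (k' := 12) (by norm_num)
  convert h using 1
  funext τ
  have e : mulH 1 τ = τ := by
    apply UpperHalfPlane.ext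
    simp [mulH]
  simp only [Sturm.Ad, e, Pi.pow_apply]

theorem isMF_Bd : IsMF Γ 12 (Sturm.Bd 1) := by
  have h := IsMF.of_levelOne (Γ := Γ) (CuspForm.discriminant : ModularForm 𝒮ℒ 12)
  convert h using 1
  funext τ
  have e : mulH 1 τ = τ := by
    apply UpperHalfPlane.ext
    simp [mulH]
  simp only [Sturm.Bd, e]
  rfl

theorem isMF_Bd_pow_mul_jd_pow (S e : ℕ) (he : e ≤ S) :
    IsMF Γ (12 * S) (Sturm.Bd 1 ^ S * jd 1 ^ e) := by
  obtain ⟨r, rfl⟩ := Nat.exists_eq_add_of_le he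
  have h : Sturm.Bd 1 ^ (e + r) * jd 1 ^ e = Sturm.Ad 1 ^ e * Sturm.Bd 1 ^ r := by
    rw [← Sturm.jd_mul_Bd, mul_pow, pow_add]
    ring
  rw [h]
  exact ((isMF_Ad.pow e).mul (isMF_Bd.pow r)).cast (by push_cast; ring)

/-- holomorphic + `Γ`-invariant of weight `k` + bounded at all cusps `⇒` modular form. -/
theorem isMF_of [Γ.FiniteIndex] (k : ℤ) (F : ℍ → ℂ) (h1 : MDiff F)
    (h2 : ∀ γ : Γ, F ∣[k] (γ : SL(2, ℤ)) = F)
    (h3 : ∀ g : SL(2, ℤ), IsBoundedAtImInfty (F ∣[k] g)) : IsMF Γ k F := by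
  refine ⟨{ toFun := F, slash_action_eq' := ?_, holo' := h1, bdd_at_cusps' := ?_ }, rfl⟩
  · rintro _ ⟨γ, hγ, rfl⟩
    exact h2 ⟨γ, hγ⟩
  · intro c hc
    rw [Subgroup.IsArithmetic.isCusp_iff_isCusp_SL2Z] at hc
    rw [OnePoint.isBoundedAt_iff_forall_SL2Z hc]
    exact fun γ _ => h3 γ

theorem IsMF_slash_eq {k : ℤ} {F : ℍ → ℂ} (hF : IsMF Γ k F) (γ : Γ) :
    F ∣[k] (γ : SL(2, ℤ)) = F := by
  obtain ⟨f, rfl⟩ := hF
  exact f.slash_action_eq' _ ⟨γ, γ.2, rfl⟩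

theorem IsMF_bdd_slash [Γ.FiniteIndex] {k : ℤ} {F : ℍ → ℂ} (hF : IsMF Γ k F) (g : SL(2, ℤ)) :
    IsBoundedAtImInfty (F ∣[k] g) := by
  obtain ⟨f, rfl⟩ := hF
  exact ModularFormClass.bdd_at_infty_slash f g

/-- **Sturm bound** (Prelude `ModularForm.sturm_bound_of_isArithmetic`;
`P2MW.S_ModularForm_sturm_bound_Gamma0.Subgroup.relIndex_map_mapGL_W2D Γ : (GR Γ).relIndex 𝒮ℒ = Γ.index`;
`PowerSeries.le_order` / `PowerSeries.order` API to pass from vanishing coefficients to the order). -/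
theorem sturm [Γ.FiniteIndex] (hT : ModularGroup.T ∈ Γ) {k : ℤ} (f : ModularForm (GR Γ) k)
    (h : ∀ n : ℕ, n ≤ (k * (Γ.index : ℤ)).toNat / 12 → (qExpansion 1 f).coeff n = 0) : f = 0 := by
  refine ModularForm.sturm_bound_of_isArithmetic (one_mem_strictPeriods hT) ?_
  have hidx : (GR Γ).relIndex 𝒮ℒ = Γ.index := by
    rw [← Subgroup.index_comap,
      Subgroup.comap_map_eq_self_of_injective Matrix.SpecialLinearGroup.mapGL_injective]
  rw [hidx]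
  refine lt_of_lt_of_le (by exact_mod_cast Nat.lt_succ_self _)
    (PowerSeries.nat_le_order _ _ fun n hn ↦ ?_)
  exact h n (by omega)

/-- `u` is a quotient of two modular forms of the same weight on `Γ`. -/
def IsMFr (Γ : Subgroup SL(2, ℤ)) (u : Mer) : Prop :=
  ∃ (k : ℤ) (A B : Hol), IsMF Γ k (A : ℍ → ℂ) ∧ IsMF Γ k (B : ℍ → ℂ) ∧ B ≠ 0 ∧
    u = algebraMap Hol Mer A / algebraMap Hol Mer B

namespace IsMFr

theorem const (c : ℂ) : IsMFr Γ (algebraMap ℂ Mer c) := by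
  refine ⟨0, algebraMap ℂ Hol c, 1, ?_, IsMF.one, one_ne_zero, ?_⟩
  · have h := (IsMF.one (Γ := Γ)).smul c
    convert h using 1
    funext τ
    simp [Algebra.algebraMap_eq_smul_one]
  · rw [map_one, div_one, ← IsScalarTower.algebraMap_apply]

theorem add {u v : Mer} (hu : IsMFr Γ u) (hv : IsMFr Γ v) : IsMFr Γ (u + v) := by
  obtain ⟨k, A, B, hA, hB, hB0, rfl⟩ := hu
  obtain ⟨k', A', B', hA', hB', hB0', rfl⟩ := hv
  have i := IsFractionRing.injective Hol Mer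
  refine ⟨k + k', A * B' + B * A', B * B', (hA.mul hB').add (hB.mul hA'), hB.mul hB',
    mul_ne_zero hB0 hB0', ?_⟩
  rw [map_add, map_mul, map_mul, map_mul,
    div_add_div _ _ ((map_ne_zero_iff _ i).mpr hB0) ((map_ne_zero_iff _ i).mpr hB0')]

theorem mul {u v : Mer} (hu : IsMFr Γ u) (hv : IsMFr Γ v) : IsMFr Γ (u * v) := by
  obtain ⟨k, A, B, hA, hB, hB0, rfl⟩ := hu
  obtain ⟨k', A', B', hA', hB', hB0', rfl⟩ := hv
  refine ⟨k + k', A * A', B * B', hA.mul hA', hB.mul hB', mul_ne_zero hB0 hB0', ?_⟩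
  rw [map_mul, map_mul, div_mul_div_comm]

theorem inv {u : Mer} (hu : IsMFr Γ u) : IsMFr Γ u⁻¹ := by
  obtain ⟨k, A, B, hA, hB, hB0, rfl⟩ := hu
  by_cases hA0 : A = 0
  · refine ⟨k, A, B, hA, hB, hB0, ?_⟩
    rw [hA0, map_zero, zero_div, inv_zero]
  · exact ⟨k, B, A, hB, hA, hA0, by rw [inv_div]⟩

end IsMFr

end

end Fermat.Agent.S48.X1
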