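import Fermat.Agent.S48.B1.Field
import Fermat.Agent.S48.EIS.Series
import Fermat.Agent.ES.An.Desc

/-!
# S48 / X1 : the function field `F1(M) = ℚ̄(j, x_{(0,a)} : a ∈ (ℤ/M)ˣ) ⊆ ℚ̄((q))` of `X₁(M)` as a `B1.QField`

* `zM M : ℚ̄`        : the primitive `M`-th root of unity with `iotaC (zM M) = e(1/M)`;
* `xg M a`           : the generator `x_{(0,a)} = EIS.xs₀ (zM M) a`, a Laurent series in `q`;
* `G1 M`             : the finite set of the `xg M a`, `a ∈ (ℤ/M)ˣ`;
* `F1Q M : B1.QField` : `E = adjoin ℚ̄ (insert j (G1 M))` (`= C1.F0 Qb (G1 M)` by `rfl`);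
* `coeffMap_xg`      : `σ x_{(0,a)} = x_{(0, c a)}` if `σ z = z ^ c`.
-/

set_option autoImplicit false

open AlgebraicCurve ModularCurve Fermat.Agent.ES

namespace Fermat.Agent.S48.X1

noncomputable section

open Fermat.Agent.S24 (iotaC)
open Fermat.Agent.S48.B1 (QField FinLevel)

variable (M : ℕ) [NeZero M]

theorem isPrimitiveRoot_zeta : IsPrimitiveRoot (EIS.zeta M) M :=
  Complex.isPrimitiveRoot_exp M (NeZero.ne M)

theorem exists_zM : ∃ z : Qb, iotaC z = EIS.zeta M := by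
  refine An.Desc.exists_iotaC_eq _ (IsIntegral.isAlgebraic ?_)
  refine IsIntegral.of_pow (Nat.pos_of_ne_zero (NeZero.ne M)) ?_
  rw [(isPrimitiveRoot_zeta M).pow_eq_one]
  exact isIntegral_one

/-- the primitive `M`-th root of unity of `ℚ̄` which is mapped to `e(1/M)` by `iotaC`. -/
def zM : Qb := (exists_zM M).choose

theorem iotaC_zM : iotaC (zM M) = EIS.zeta M := (exists_zM M).choose_spec

theorem isPrimitiveRoot_zM : IsPrimitiveRoot (zM M) M := by
  have h := isPrimitiveRoot_zeta M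
  rw [← iotaC_zM] at h
  exact h.of_map_of_injective iotaC.injective

theorem zM_pow : zM M ^ M = 1 := (isPrimitiveRoot_zM M).pow_eq_one

/-- the generator `x_{(0,a)}`. -/
def xg (a : ZMod M) : LaurentSeries Qb := EIS.xs₀ (zM M) a

/-- the generators `x_{(0,a)}`, `a ∈ (ℤ/M)ˣ`. -/
def G1 : Set (LaurentSeries Qb) := Set.range fun a : (ZMod M)ˣ => xg M (a : ZMod M)

theorem finite_G1 : (G1 M).Finite := Set.finite_range _

variable {M}

/-! ### change of the root of unity -/

theorem pow_val_mul {R : Type*} [CommRing R] {z : R} (hz : z ^ M = 1) (c : ℕ) (a : ZMod M) :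
    z ^ (((c : ZMod M) * a).val) = (z ^ c) ^ a.val := by
  have h1 : (((c : ZMod M) * a).val) = (c * a.val) % M := by
    conv_lhs => rw [← ZMod.natCast_zmod_val a, ← Nat.cast_mul, ZMod.val_natCast]
  rw [h1, ← pow_mul]
  conv_rhs => rw [← Nat.div_add_mod (c * a.val) M, pow_add, pow_mul, hz, one_pow, one_mul]

theorem nc₀_pow {R : Type*} [Field R] {z : R} (hz : z ^ M = 1) (c : ℕ) (k : ℕ) (a : ZMod M)
    (n : ℕ) : EIS.nc₀ (z ^ c) k a n = EIS.nc₀ z k ((c : ZMod M) * a) n := by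
  unfold EIS.nc₀ EIS.coef₀
  have h2 : -((c : ZMod M) * a) = (c : ZMod M) * (-a) := by ring
  simp only [h2, mul_comm _ (ZMod.val _), pow_mul, pow_val_mul hz]

theorem xs₀_pow {R : Type*} [Field R] {z : R} (hz : z ^ M = 1) (c : ℕ) (a : ZMod M) :
    EIS.xs₀ (z ^ c) a = EIS.xs₀ z ((c : ZMod M) * a) := by
  unfold EIS.xs₀ EIS.gs₀
  congr 2
  ext n
  simp only [PowerSeries.coeff_mk]
  exact nc₀_pow hz c 4 a n

/-- `σ z = z ^ c` with `c` prime to `M`. -/
theorem exists_gal_zM (σ : GQ) : ∃ c : ℕ, c.Coprime M ∧ σ (zM M) = zM M ^ c := by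
  have h := isPrimitiveRoot_zM M
  have hσ : IsPrimitiveRoot (σ (zM M)) M := h.map_of_injective σ.injective
  obtain ⟨c, -, hc⟩ := h.eq_pow_of_pow_eq_one hσ.pow_eq_one
  refine ⟨c, ?_, hc.symm⟩
  rw [← hc] at hσ
  exact (h.pow_iff_coprime (Nat.pos_of_ne_zero (NeZero.ne M)) c).mp hσ

theorem coeffMap_xg (σ : GQ) {c : ℕ} (hc : σ (zM M) = zM M ^ c) (a : ZMod M) :
    coeffMap (σ : Qb →+* Qb) (xg M a) = xg M ((c : ZMod M) * a) := by
  unfold xg
  rw [EIS.coeffMap_xs₀]
  have : (σ : Qb →+* Qb) (zM M) = zM M ^ c := hc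
  rw [this, xs₀_pow (zM_pow M)]

/-! ### boundedness of the coefficients -/

theorem fgCoeff_of_int (x : LaurentSeries ℤ) :
    Pivot.FGCoeff (coeffMap (Int.castRingHom Qb) x) := by
  refine ⟨Submodule.span ℤ {1}, Submodule.fg_span_singleton 1, fun n => ?_⟩
  rw [coeffMap_coeff, Submodule.mem_span_singleton]
  exact ⟨x.coeff n, by simp⟩

theorem fgCoeff_jq : Pivot.FGCoeff (jqModC Qb) := by
  rw [← coeffMap_jqModC (Int.castRingHom Qb)]
  exact fgCoeff_of_int _

theorem fgCoeff_wfac : Pivot.FGCoeff (EIS.wfac Qb) := by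
  rw [← EIS.coeffMap_wfac (Int.castRingHom Qb)]
  exact fgCoeff_of_int _

theorem pow_mem_span {z : Qb} (hz : z ^ M = 1) (S : Set Qb) (j : ℕ) :
    z ^ j ∈ Submodule.span ℤ (S ∪ ((Finset.range M).image (fun i => z ^ i) : Finset Qb)) := by
  apply Submodule.subset_span
  right
  rw [Finset.mem_coe, Finset.mem_image]
  refine ⟨j % M, Finset.mem_range.mpr (Nat.mod_lt _ (Nat.pos_of_ne_zero (NeZero.ne M))), ?_⟩
  conv_rhs => rw [← Nat.div_add_mod j M, pow_add, pow_mul, hz, one_pow, one_mul]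

theorem fgCoeff_gs₀ {z : Qb} (hz : z ^ M = 1) (k : ℕ) (a : ZMod M) :
    Pivot.FGCoeff (HahnSeries.ofPowerSeries ℤ Qb (EIS.gs₀ z k a)) := by
  classical
  refine ⟨Submodule.span ℤ ({EIS.Pk k (z ^ a.val)} ∪
    ((Finset.range M).image (fun i => z ^ i) : Finset Qb)), ?_, fun n => ?_⟩
  · refine Submodule.fg_span ?_
    exact (Set.finite_singleton _).union (Finset.finite_toSet _)
  · change ((EIS.gs₀ z k a : PowerSeries Qb) : LaurentSeries Qb).coeff n ∈ _
    rw [PowerSeries.coeff_coe]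
    split_ifs with hn
    · exact zero_mem _
    · rw [EIS.coeff_gs₀]
      unfold EIS.nc₀
      split_ifs with h0
      · exact Submodule.subset_span (Or.inl rfl)
      · unfold EIS.coef₀
        refine sum_mem fun m _ => ?_
        have key : ∀ (x : Qb), x ∈ Submodule.span ℤ ({EIS.Pk k (z ^ a.val)} ∪
            ((Finset.range M).image (fun i => z ^ i) : Finset Qb)) →
            ∀ c : ℤ, (c : Qb) * x ∈ Submodule.span ℤ ({EIS.Pk k (z ^ a.val)} ∪
            ((Finset.range M).image (fun i => z ^ i) : Finset Qb)) := by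
          intro x hx c
          have := Submodule.smul_mem _ c hx
          rwa [zsmul_eq_mul] at this
        have h1 := key _ (pow_mem_span hz {EIS.Pk k (z ^ a.val)} (m * a.val)) ((m : ℤ) ^ (k - 1))
        have h2 := key _ (pow_mem_span hz {EIS.Pk k (z ^ a.val)} (m * (-a).val))
          ((m : ℤ) ^ (k - 1) * (-1) ^ k)
        have h3 := add_mem h1 h2
        convert h3 using 1
        push_cast
        ring

theorem fgCoeff_xg (a : ZMod M) : Pivot.FGCoeff (xg M a) :=
  (fgCoeff_gs₀ (zM_pow M) 4 a).mul fgCoeff_wfac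

/-! ### finite level -/

theorem finLevel_jq : FinLevel (jqModC Qb) :=
  ⟨⊥, inferInstance, fun _ _ => coeffMap_jqModC _⟩

theorem finLevel_xg (a : ZMod M) : FinLevel (xg M a) := by
  refine ⟨IntermediateField.adjoin ℚ {zM M}, IntermediateField.adjoin.finiteDimensional
    ((AlgebraicClosure.isAlgebraic ℚ).isAlgebraic (zM M)).isIntegral, fun σ hσ => ?_⟩
  have h1 : σ (zM M) = zM M ^ 1 := by
    rw [pow_one]
    exact hσ _ (IntermediateField.mem_adjoin_simple_self ℚ _)
  rw [coeffMap_xg σ h1, Nat.cast_one, one_mul]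

variable (M)

/-- **The function field of `X₁(M)`** over `ℚ̄`, inside `ℚ̄((q))`. -/
def F1Q : QField where
  E := IntermediateField.adjoin Qb (insert (jqModC Qb) (G1 M))
  gens := insert (jqModC Qb) (G1 M)
  E_eq := rfl
  fg := by
    rintro x (rfl | ⟨a, rfl⟩)
    · exact fgCoeff_jq
    · exact fgCoeff_xg _
  level := by
    rintro x (rfl | ⟨a, rfl⟩)
    · exact finLevel_jq
    · exact finLevel_xg _
  gal_gens := by
    rintro σ x (rfl | ⟨a, rfl⟩)
    · rw [coeffMap_jqModC]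
      exact IntermediateField.subset_adjoin _ _ (Set.mem_insert _ _)
    · obtain ⟨c, hc, hσ⟩ := exists_gal_zM (M := M) σ
      show coeffMap (σ : Qb →+* Qb) (xg M (a : ZMod M)) ∈ _
      rw [coeffMap_xg σ hσ]
      refine IntermediateField.subset_adjoin _ _ (Set.mem_insert_of_mem _ ?_)
      exact ⟨ZMod.unitOfCoprime c hc * a, rfl⟩

theorem F1Q_E : (F1Q M).E = IntermediateField.adjoin Qb (insert (jqModC Qb) (G1 M)) := rfl

theorem jq_mem : jqModC Qb ∈ (F1Q M).E :=
  IntermediateField.subset_adjoin _ _ (Set.mem_insert _ _)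

theorem xg_mem (a : (ZMod M)ˣ) : xg M (a : ZMod M) ∈ (F1Q M).E :=
  IntermediateField.subset_adjoin _ _ (Set.mem_insert_of_mem _ ⟨a, rfl⟩)

end

end Fermat.Agent.S48.X1
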