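import Fermat.Agent.S48.X1.Inst
import Fermat.Agent.S48.An1.Data

/-!
# S48 / X1 : the output of part (A): `x1Data M hM : An1.X1Data M`
-/

set_option autoImplicit false

open AlgebraicCurve ModularCurve UpperHalfPlane Matrix
open scoped MatrixGroups IntermediateField Manifold ModularForm

namespace Fermat.Agent.S48.X1

open Fermat.Agent.S24 Fermat.Agent.ES.An
open Fermat.Agent.ES (Qb)
open Fermat.Agent.S48.An1 (Model Gpm)

noncomputable section

variable (M : ℕ) [NeZero M]

theorem modelB1_φ (hM : 5 ≤ M) (f : (F1Q M).F) :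
    (modelB1 M hM).φ f = (gens1 M hM).toMer ((gens1 M hM).bc f) := rfl

/-- **the output of part (A).** -/
def x1Data (hM : 5 ≤ M) : An1.X1Data M where
  B := modelB1 M hM
  φ_jq := by
    show (gens1 M hM).toMer ((gens1 M hM).bc (gens1 M hM).jB) = jMer
    rw [Gens.bc_jB, Gens.toMer_jC]
  φ_xg a := by
    show (gens1 M hM).toMer ((gens1 M hM).bc ((gens1 M hM).genB (some a))) = _
    rw [Gens.bc_genB, Gens.toMer_gen]
    rfl
  hasLau f := (gens1 M hM).hasLau_toMer ((gens1 M hM).bc f)
  isMFr f := (gens1 M hM).isMFr_toMer ((gens1 M hM).bc f)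
  mem_of_isMFr u x hu hx := by
    obtain ⟨f, hf⟩ := (gens1 M hM).mem_range_of_isMFr (T_mem_Gpm M) u hu
    have h1 := (gens1 M hM).hasLau_toMer f
    rw [hf] at h1
    have h2 : (f : LaurentSeries ℂ) = coeffMap iotaC x := h1.unique hx
    refine (gens1 M hM).mem_FQ_of_coeffMap_mem (T_mem_Gpm M) x ?_
    rw [← h2]
    exact f.2
  root l hl w f hw hinv := by
    obtain ⟨g, hg⟩ := (gens1 M hM).mem_range_of_pow (T_mem_Gpm M) l hl w ((gens1 M hM).bc f) hw hinv
    refine (gens1 M hM).exists_root_of_bc (T_mem_Gpm M) l hl f g ?_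
    apply (gens1 M hM).toMer_injective
    rw [map_pow, hg, hw]
    rfl

end

end Fermat.Agent.S48.X1
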