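import Fermat.Agent.S48.X1.CuspPolyGen
import Fermat.Agent.S48.EIS.Integral
import Fermat.Agent.S48.EIS.Prim
import Fermat.Agent.S48.C1.Model

/-!
# S48 / X1 / CuspPoly : the cusp polynomial of the generators `x_{(0,a)}` of `F₁(M)`   (CUSPPOLY, board #1494)

`hasCuspPolyQ` : for `M ≥ 5`, `p ∤ M`, `A` a valuation subring of `ℚ̄` over `p`, `z ∈ ℚ̄` the `M`-th root of unity with
`ι z = e(1/M)`, `a ∈ (ℤ/M)ˣ`: `C1.HasCuspPolyQ A M (x_{(0,a)}(x^M))`; index type `EIS.Prim M`, roots `x_v`.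
-/

set_option autoImplicit false

open UpperHalfPlane hiding I
open Polynomial ModularCurve Matrix
open scoped MatrixGroups Manifold

namespace Fermat.Agent.S48.X1

open Fermat.Agent.S24
open Fermat.Agent.S28 (evAt)
open Fermat.Agent.ES (Qb)

noncomputable section

/-- a root of unity of order prime to the residue characteristic stays primitive in the residue field. -/
theorem isPrimitiveRoot_residue {K : Type*} [Field K] (A : ValuationSubring K) (p M : ℕ)
    (hp : p.Prime) (hpM : ¬ p ∣ M) (hM : M ≠ 0) (hA : IsLocalRing.residue A (p : A) = 0) (z : A)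
    (hz : IsPrimitiveRoot z M) : IsPrimitiveRoot (IsLocalRing.residue A z) M := by
  refine IsPrimitiveRoot.mk_of_lt _ (Nat.pos_of_ne_zero hM) ?_ ?_
  · rw [← map_pow, hz.pow_eq_one, map_one]
  · intro l hl0 hlM hl
    have hw1 : z ^ l ≠ 1 := hz.pow_ne_one_of_pos_of_lt hl0.ne' hlM
    have hwM : (z ^ l) ^ M = 1 := by rw [← pow_mul, mul_comm, pow_mul, hz.pow_eq_one, one_pow]
    have hsum : ∑ i ∈ Finset.range M, (z ^ l) ^ i = 0 := by
      have h1 := geom_sum_mul (z ^ l) M
      rw [hwM, sub_self] at h1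
      rcases mul_eq_zero.mp h1 with h2 | h2
      · exact h2
      · exact absurd (sub_eq_zero.mp h2) hw1
    have h3 := congrArg (IsLocalRing.residue A) hsum
    rw [map_sum, map_zero] at h3
    simp only [map_pow, hl, one_pow, Finset.sum_const, Finset.card_range, nsmul_eq_mul,
      mul_one] at h3
    have hcop : IsCoprime (p : ℤ) (M : ℤ) :=
      Nat.isCoprime_iff_coprime.mpr ((Nat.Prime.coprime_iff_not_dvd hp).mpr hpM)
    obtain ⟨u, v, huv⟩ := hcop
    have h4 := congrArg (fun t : ℤ => (t : IsLocalRing.ResidueField A)) huv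
    simp only [Int.cast_add, Int.cast_mul, Int.cast_natCast, Int.cast_one] at h4
    rw [map_natCast] at hA
    rw [hA, h3, mul_zero, mul_zero, add_zero] at h4
    exact zero_ne_one h4

variable (M : ℕ) [NeZero M]

/-- the permutation of `Prim M` induced by `γ`. -/
def primPerm (γ : SL(2, ℤ)) : Equiv.Perm (EIS.Prim M) :=
  (EIS.vecPerm γ).subtypeEquiv fun v => ((EIS.vecMul_mem_Prim v γ).symm)

theorem primPerm_coe (γ : SL(2, ℤ)) (v : EIS.Prim M) :
    ((primPerm M γ v : EIS.Prim M) : Fin 2 → ZMod M) = ((v : Fin 2 → ZMod M) ᵥ* γ) := rfl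

/-- over `ℂ`. -/
theorem coeff_xs_mem_range (hM : 1 < M) (k : ℕ) :
    (∏ v : EIS.Prim M, (Polynomial.X - C (EIS.xs (EIS.zeta M) (v : Fin 2 → ZMod M)))).coeff k ∈
      (evAt (qExpand ℂ M (jqModC ℂ))).range := by
  have h := coeff_mem_range_C M (fun v : EIS.Prim M => EIS.Xf M (v : Fin 2 → ZMod M))
    (fun v => EIS.Xf_mem_HolCusp _) (primPerm M) (fun g v τ => EIS.Xf_smul _ g τ) k
  have h2 : ∀ v : EIS.Prim M, laurent M ⟨EIS.Xf M (v : Fin 2 → ZMod M), EIS.Xf_mem_HolCusp _⟩
      = EIS.xs (EIS.zeta M) (v : Fin 2 → ZMod M) := fun v =>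
    EIS.laurent_Xf _ (EIS.ne_zero_of_addOrderOf hM _ ((EIS.mem_Prim _).mp v.2))
  simp only [h2] at h
  exact h

/-- **CUSPPOLY.** -/
theorem hasCuspPolyQ (hM : 5 ≤ M) (p : ℕ) (hp : p.Prime) (hpM : ¬ p ∣ M)
    (A : ValuationSubring Qb) (hA : A.LiesOverPrime p) (z : Qb) (hz : iotaC z = EIS.zeta M)
    (a : (ZMod M)ˣ) : C1.HasCuspPolyQ A M (qExpand Qb M (EIS.xs₀ z (a : ZMod M))) := by
  classical
  have hM0 : M ≠ 0 := NeZero.ne M
  have hinj : Function.Injective iotaC := iotaC.injective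
  have hzprim : IsPrimitiveRoot z M :=
    IsPrimitiveRoot.of_map_of_injective (f := iotaC) (by rw [hz]; exact EIS.isPrimitiveRoot_zeta) hinj
  have hzM : z ^ M = 1 := hzprim.pow_eq_one
  have hzA : z ∈ A := by
    rcases A.mem_or_inv_mem z with h | h
    · exact h
    · have h1 : z = z⁻¹ ^ (M - 1) := by
        have hz0 : z ≠ 0 := hzprim.ne_zero hM0
        have h2 : z * z ^ (M - 1) = 1 := by
          rw [← pow_succ', Nat.sub_add_cancel (Nat.pos_of_ne_zero hM0), hzM]
        rw [inv_pow]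
        exact eq_inv_of_mul_eq_one_left h2
      rw [h1]
      exact pow_mem h _
  set zA : A := ⟨z, hzA⟩ with hzAdef
  have hzA' : zA ^ M = 1 := Subtype.ext (by simpa using hzM)
  have hzAprim : IsPrimitiveRoot zA M :=
    IsPrimitiveRoot.of_map_of_injective (f := A.subtype) (by exact hzprim) Subtype.val_injective
  have hres : IsPrimitiveRoot (IsLocalRing.residue A zA) M :=
    isPrimitiveRoot_residue A p M hp hpM hM0 (Crux.residue_natCast_eq_zero A hA) zA hzAprim
  have hloc : ∀ a : A, IsLocalRing.residue A a ≠ 0 → IsUnit a := by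
    intro a ha
    by_contra h
    exact ha ((IsLocalRing.residue_eq_zero_iff a).mpr ((IsLocalRing.mem_maximalIdeal a).mpr h))
  have hY : ∀ v : EIS.Prim M, ∃ Y : LaurentSeries A,
      coeffMap A.subtype Y = EIS.xs z (v : Fin 2 → ZMod M) ∧
      coeffMap (IsLocalRing.residue A) Y = EIS.xs (IsLocalRing.residue A zA) (v : Fin 2 → ZMod M) :=
    fun v => EIS.exists_xs_lift A.subtype (IsLocalRing.residue A) hloc zA hres hzA' v
  choose Y hY1 hY2 using hY
  have hYC : ∀ v, coeffMap (iotaC.comp A.subtype) (Y v)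
      = EIS.xs (EIS.zeta M) (v : Fin 2 → ZMod M) := by
    intro v
    rw [← coeffMap_coeffMap, hY1, EIS.coeffMap_xs, hz]
  obtain ⟨Φ, hΦ1, hΦ2⟩ := exists_monic_of_coeffMap (iotaC.comp A.subtype)
    (hinj.comp Subtype.val_injective) M Y (by
      intro k
      simp only [hYC]
      exact coeff_xs_mem_range M (by omega) k)
  refine ⟨Φ, EIS.Prim M, inferInstance, Y, IntermediateField.adjoin ℚ {z}, ?_, ?_, hΦ1, hΦ2, ?_, ?_⟩
  · exact IntermediateField.adjoin.finiteDimensional
      (IsIntegral.of_pow (Nat.pos_of_ne_zero hM0) (by rw [hzM]; exact isIntegral_one))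
  · intro v m
    have h1 : (((Y v).coeff m : A) : Qb) = (coeffMap A.subtype (Y v)).coeff m := by
      rw [coeffMap_coeff]
      rfl
    let zL : IntermediateField.adjoin ℚ {z} := ⟨z, IntermediateField.mem_adjoin_simple_self ℚ z⟩
    have h3 : algebraMap (IntermediateField.adjoin ℚ {z}) Qb zL = z := rfl
    have h2 := EIS.coeffMap_xs (algebraMap (IntermediateField.adjoin ℚ {z}) Qb) zL
      (v : Fin 2 → ZMod M)
    rw [h3] at h2
    rw [h1, hY1, ← h2, coeffMap_coeff]
    exact SetLike.coe_mem _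
  · refine ⟨⟨![0, (a : ZMod M)], (EIS.mem_Prim _).mpr (EIS.addOrderOf_zero_unit a)⟩, ?_⟩
    rw [hY1, EIS.xs_zero]
  · intro v v' h
    rw [hY2, hY2] at h
    have h1 := EIS.xs_eq_of_reduction_eq hM A.subtype (IsLocalRing.residue A) zA hres hzA'
      (v : Fin 2 → ZMod M) (v' : Fin 2 → ZMod M) ((EIS.mem_Prim _).mp v.2) ((EIS.mem_Prim _).mp v'.2) h
    apply S28.Build.coeffMap_injective A.subtype Subtype.val_injective
    rw [hY1, hY1]
    exact h1

end

end Fermat.Agent.S48.X1
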