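import Fermat.Agent.S48.EIS.Bridge
import Fermat.Agent.S17.F.PolyJ
import Fermat.Agent.S17.F.Growth
import Fermat.Agent.S28.HeckeFormal

/-!
# S48 / X1 / CuspPolyGen : a finite family of functions permuted by `SL₂(ℤ)` satisfies a monic equation over `ℂ[j]`

Generic part of CUSPPOLY (board #1494).
* `coeff_mem_range_C` : `X_i ∈ HolCusp M` (`i ∈ ι` finite) with `X_i ∘ g = X_{π_g i}`: the coefficients of
  `∏ (Y - laurent M X_i)` are polynomials in `j(x^M)` over `ℂ`.
* `exists_monic_of_coeffMap` : descent to a subring `A → ℂ`.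
-/

set_option autoImplicit false

open UpperHalfPlane hiding I
open Polynomial ModularCurve
open scoped MatrixGroups Manifold

namespace Fermat.Agent.S48.X1

open Fermat.Agent.S24
open Fermat.Agent.S28 (evAt)

noncomputable section

/-- composition with `g ∈ SL₂(ℤ)` as a ring homomorphism. -/
def compHom (g : SL(2, ℤ)) : (ℍ → ℂ) →+* (ℍ → ℂ) where
  toFun f := fun τ => f (g • τ)
  map_one' := rfl
  map_mul' _ _ := rfl
  map_zero' := rfl
  map_add' _ _ := rfl

theorem compHom_apply (g : SL(2, ℤ)) (f : ℍ → ℂ) (τ : ℍ) : compHom g f τ = f (g • τ) := rfl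

/-- `laurent M j = j(x^M)`. -/
theorem laurent_jfun (M : ℕ) [NeZero M] :
    laurent M ⟨jfun, jfun_mem_HolCusp M⟩ = qExpand ℂ M (jqModC ℂ) := by
  have h1 : jd 1 = jfun := by
    funext τ
    rw [jd]
    congr 1
    rw [UpperHalfPlane.ext_iff]
    simp [mulH]
  have h2 : laurent 1 ⟨jfun, jfun_mem_HolCusp 1⟩ = jqModC ℂ := by
    have h3 := laurent_jd 1
    rw [QDict.coeffMap_jSer, qExpand_one_apply] at h3
    have h5 : (⟨jfun, jfun_mem_HolCusp 1⟩ : HolCusp 1) = ⟨jd 1, jd_mem_HolCusp_one 1⟩ :=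
      Subtype.ext h1.symm
    rw [h5]
    exact h3
  have h4 := EIS.laurent_of_one M ⟨jfun, jfun_mem_HolCusp 1⟩
  rw [h2] at h4
  exact h4

variable {ι : Type} [Fintype ι]

/-- the coefficients of `∏ (Y - X_i)` are invariant. -/
theorem coeff_prod_invariant (X : ι → ℍ → ℂ) (perm : SL(2, ℤ) → Equiv.Perm ι)
    (hact : ∀ g i τ, X i (g • τ) = X (perm g i) τ) (k : ℕ) (g : SL(2, ℤ)) (τ : ℍ) :
    (∏ i, (Polynomial.X - C (X i))).coeff k (g • τ) = (∏ i, (Polynomial.X - C (X i))).coeff k τ := by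
  have h : (∏ i, (Polynomial.X - C (X i))).map (compHom g) = ∏ i, (Polynomial.X - C (X i)) := by
    rw [Polynomial.map_prod, ← Equiv.prod_comp (perm g) fun i => (Polynomial.X - C (X i))]
    refine Finset.prod_congr rfl fun i _ => ?_
    rw [Polynomial.map_sub, Polynomial.map_X, Polynomial.map_C]
    congr 2
    funext τ
    exact hact g i τ
  have h2 := congrArg (fun P => P.coeff k τ) h
  simp only [Polynomial.coeff_map] at h2
  exact h2

/-- **the coefficients of `∏ (Y - laurent M X_i)` are polynomials in `j(x^M)`.** -/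
theorem coeff_mem_range_C (M : ℕ) [NeZero M] (X : ι → ℍ → ℂ) (hX : ∀ i, X i ∈ HolCusp M)
    (perm : SL(2, ℤ) → Equiv.Perm ι) (hact : ∀ g i τ, X i (g • τ) = X (perm g i) τ) (k : ℕ) :
    (∏ i, (Polynomial.X - C (laurent M ⟨X i, hX i⟩))).coeff k ∈
      (evAt (qExpand ℂ M (jqModC ℂ))).range := by
  -- the polynomial over `HolCusp M`
  set P : (HolCusp M)[X] := ∏ i, (Polynomial.X - C (⟨X i, hX i⟩ : HolCusp M)) with hP
  have hP1 : P.map ((HolCusp M).val : HolCusp M →+* (ℍ → ℂ)) = ∏ i, (Polynomial.X - C (X i)) := by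
    rw [hP, Polynomial.map_prod]
    refine Finset.prod_congr rfl fun i _ => ?_
    rw [Polynomial.map_sub, Polynomial.map_X, Polynomial.map_C]
    rfl
  have hP2 : P.map ((laurent M : HolCusp M →ₐ[ℂ] LaurentSeries ℂ) : HolCusp M →+* LaurentSeries ℂ)
      = ∏ i, (Polynomial.X - C (laurent M ⟨X i, hX i⟩)) := by
    rw [hP, Polynomial.map_prod]
    refine Finset.prod_congr rfl fun i _ => ?_
    rw [Polynomial.map_sub, Polynomial.map_X, Polynomial.map_C]
    rfl
  -- the coefficient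
  set c : HolCusp M := P.coeff k with hc
  have hcval : (c : ℍ → ℂ) = (∏ i, (Polynomial.X - C (X i))).coeff k := by
    rw [← hP1, Polynomial.coeff_map]
    rfl
  have hinv : ∀ (g : SL(2, ℤ)) (τ : ℍ), (c : ℍ → ℂ) (g • τ) = (c : ℍ → ℂ) τ := by
    intro g τ
    rw [hcval]
    exact coeff_prod_invariant X perm hact k g τ
  have hc1 : (c : ℍ → ℂ) ∈ HolCusp 1 :=
    S17.F.mem_HolCusp_one_of_invariant (S17.F.HolCusp_le_ModG c.2) hinv
  have hadj := S17.F.mem_adjoin_jfun hc1 hinv
  rw [Algebra.adjoin_singleton_eq_range_aeval] at hadj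
  obtain ⟨Q, hQ⟩ := hadj
  refine ⟨Q, ?_⟩
  rw [← hP2, Polynomial.coeff_map]
  have hcQ : c = Polynomial.aeval (⟨jfun, jfun_mem_HolCusp M⟩ : HolCusp M) Q := by
    apply Subtype.ext
    have h5 : ((Polynomial.aeval (⟨jfun, jfun_mem_HolCusp M⟩ : HolCusp M) Q : HolCusp M) : ℍ → ℂ)
        = Polynomial.aeval jfun Q := by
      have := Polynomial.aeval_algHom_apply (HolCusp M).val
        (⟨jfun, jfun_mem_HolCusp M⟩ : HolCusp M) Q
      exact this.symm
    rw [h5]
    exact hQ.symm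
  show evAt (qExpand ℂ M (jqModC ℂ)) Q = laurent M c
  rw [hcQ, ← Polynomial.aeval_algHom_apply, laurent_jfun]
  rw [evAt, Polynomial.coe_eval₂RingHom, Polynomial.aeval_def]
  congr 1
  ext c n
  rw [algebraMap_laurentSeries_eq_single]
  rfl

/-- **descent**: if the coefficients of `∏ (Y - f(Y_i))` are polynomials in `j(x^M)` over `ℂ`, then `∏ (Y - Y_i)` is
`Φ(j(x^M), Y)` with `Φ` monic over `A`. -/
theorem exists_monic_of_coeffMap {A B : Type*} [CommRing A] [CommRing B] (f : A →+* B)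
    (hf : Function.Injective f) (M : ℕ) [NeZero M] (Y : ι → LaurentSeries A)
    (h : ∀ k, (∏ i, (Polynomial.X - C (coeffMap f (Y i)))).coeff k ∈
      (evAt (qExpand B M (jqModC B))).range) :
    ∃ Φ : A[X][X], Φ.Monic ∧
      Φ.map (evAt (qExpand A M (jqModC A))) = ∏ i, (Polynomial.X - C (Y i)) := by
  have hmonic : (∏ i, (Polynomial.X - C (Y i))).Monic :=
    Polynomial.monic_prod_of_monic _ _ fun i _ => Polynomial.monic_X_sub_C _
  have hmap : (∏ i, (Polynomial.X - C (Y i))).map (coeffMap f)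
      = ∏ i, (Polynomial.X - C (coeffMap f (Y i))) := by
    rw [Polynomial.map_prod]
    refine Finset.prod_congr rfl fun i _ => ?_
    rw [Polynomial.map_sub, Polynomial.map_X, Polynomial.map_C]
  have hlift : (∏ i, (Polynomial.X - C (Y i))) ∈
      Polynomial.lifts (evAt (qExpand A M (jqModC A))) := by
    rw [Polynomial.lifts_iff_coeff_lifts]
    intro k
    have h1 := h k
    rw [← hmap, Polynomial.coeff_map] at h1
    exact S28.Build.mem_range_evAt_of_coeffMap f hf M _ h1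
  obtain ⟨Φ, h1, -, h3⟩ := Polynomial.lifts_and_natDegree_eq_and_monic hlift hmonic
  exact ⟨Φ, h3, h1⟩

end

end Fermat.Agent.S48.X1
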