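import Fermat.Agent.S48.X1.BC
import Fermat.Agent.S48.X1.F1Q
import Fermat.Agent.S48.X1.CuspPolyGen
import Fermat.Agent.S48.EIS.Bridge
import Fermat.Agent.S48.EIS.Integral
import Fermat.Agent.S48.EIS.Prim

/-!
# S48 / X1 : the generators of the function field of `X₁(M)`, `M ≥ 5`:  `gens1 M : Gens (Gpm M) M`
TASKS S48/X1-InstA (`T_mem_Gpm` ... `lau1`), S48/X1-InstB (`inv1`, `sep1`, `cusp1`, `mf1`).

Index set `Option (ZMod M)ˣ`:  `none ↦ j`,  `some a ↦ x_{(0,a)}`  (`EIS.Xf M ![0,a]`, `EIS.xs₀ (EIS.zeta M) a`, `X1.xg M a`).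
OUTPUT: `modelC1 M`, `modelB1 M : An1.Model (Gpm M) M Qb (F1Q M).F`.
-/

set_option autoImplicit false

open AlgebraicCurve ModularCurve UpperHalfPlane Matrix
open scoped MatrixGroups IntermediateField Manifold ModularForm

namespace Fermat.Agent.S48.X1

open Fermat.Agent.S24 Fermat.Agent.ES.An
open Fermat.Agent.ES (Qb)
open Fermat.Agent.S48.An1 (Model Gpm)

noncomputable section

variable (M : ℕ) [NeZero M]

theorem T_mem_Gpm : ModularGroup.T ∈ Gpm M := by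
  refine Or.inl ?_
  rw [CongruenceSubgroup.Gamma1_mem]
  simp [ModularGroup.T]

instance instFiniteIndexGpm : (Gpm M).FiniteIndex :=
  Subgroup.finiteIndex_of_le (An1.Gamma1_le_Gpm M)

/-- the analytic generators. -/
def H1 : Option (ZMod M)ˣ → ℍ → ℂ
  | none => jfun
  | some a => EIS.Xf M ![0, (a : ZMod M)]

/-- the `q`-expansions over `ℂ`. -/
def S1 : Option (ZMod M)ˣ → LaurentSeries ℂ
  | none => jqModC ℂ
  | some a => EIS.xs₀ (EIS.zeta M) (a : ZMod M)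

/-- the `q`-expansions over `ℚ̄`. -/
def SQ1 : Option (ZMod M)ˣ → LaurentSeries Qb
  | none => jqModC Qb
  | some a => xg M (a : ZMod M)

/-- the function field of `X₁(M)` over `ℂ`. -/
def FC1 : IntermediateField ℂ (LaurentSeries ℂ) := IntermediateField.adjoin ℂ (Set.range (S1 M))

theorem range_SQ1 : Set.range (SQ1 M) = insert (jqModC Qb) (G1 M) := by
  ext x
  constructor
  · rintro ⟨i, rfl⟩
    cases i with
    | none => exact Set.mem_insert _ _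
    | some a => exact Set.mem_insert_of_mem _ ⟨a, rfl⟩
  · rintro (rfl | ⟨a, rfl⟩)
    · exact ⟨none, rfl⟩
    · exact ⟨some a, rfl⟩

theorem FQ_eq1 : (F1Q M).E = IntermediateField.adjoin Qb (Set.range (SQ1 M)) := by
  rw [range_SQ1]
  rfl

theorem map_SQ1 (i : Option (ZMod M)ˣ) : coeffMap iotaC (SQ1 M i) = S1 M i := by
  cases i with
  | none => exact coeffMap_jqModC _
  | some a =>
    show coeffMap iotaC (EIS.xs₀ (zM M) (a : ZMod M)) = EIS.xs₀ (EIS.zeta M) (a : ZMod M)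
    rw [EIS.coeffMap_xs₀, iotaC_zM]

theorem mem1 (i : Option (ZMod M)ˣ) : H1 M i ∈ HolCusp 1 := by
  cases i with
  | none => exact jfun_mem_HolCusp 1
  | some a => exact EIS.Xf₀_mem_HolCusp_one _

theorem unit_ne_zero (hM : 5 ≤ M) (a : (ZMod M)ˣ) : (a : ZMod M) ≠ 0 := by
  haveI : Fact (1 < M) := ⟨by omega⟩
  exact a.ne_zero

/-- (`none`: `S24.laurent_jd 1`, `Packages.jd_one`, `QDict.coeffMap_jSer`; or helper4's `X1.laurent_jfun`.
`some a`: `EIS.laurent_Xf₀`, `a ≠ 0` since `1 < M`.) -/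
theorem lau1 (hM : 5 ≤ M) (i : Option (ZMod M)ˣ) : laurent 1 ⟨H1 M i, mem1 M i⟩ = S1 M i := by
  cases i with
  | none =>
    have h := laurent_jfun 1
    rw [qExpand_one_apply] at h
    exact h
  | some a => exact EIS.laurent_Xf₀ _ (unit_ne_zero M hM a)

/-- (`jfun_smul`; `EIS.Xf_smul`, `EIS.vecMul_Gamma1`, `EIS.Xf_neg`: for `-γ ∈ Γ₁(M)` use `γ • τ = (-γ) • τ`.) -/
theorem inv1 (γ : SL(2, ℤ)) (hγ : γ ∈ Gpm M) (i : Option (ZMod M)ˣ) (τ : ℍ) :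
    H1 M i (γ • τ) = H1 M i τ := by
  cases i with
  | none => exact jfun_smul γ τ
  | some a =>
    show EIS.Xf M ![0, (a : ZMod M)] (γ • τ) = EIS.Xf M ![0, (a : ZMod M)] τ
    rcases hγ with h | h
    · rw [EIS.Xf_smul, EIS.vecMul_Gamma1 _ _ h]
    · rw [← ModularGroup.SL_neg_smul, EIS.Xf_smul, EIS.vecMul_Gamma1 _ _ h]

/-- (`i = some 1`: `Xf M (0,1) ∘ g = Xf M ((0,1) g)` so `EIS.Xf_eq_iff`, `EIS.gs_sep`, `EIS.addOrderOf_vecMul`,
`EIS.addOrderOf_zero_unit`, `EIS.zero_one_vecMul_eq_iff`, `EIS.zero_one_vecMul_eq_neg_iff`, `EIS.isPrimitiveRoot_zeta`.) -/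
theorem sep1 (hM : 5 ≤ M) (g : SL(2, ℤ)) (hg : ∀ i τ, H1 M i (g • τ) = H1 M i τ) : g ∈ Gpm M := by
  have h1 : EIS.Xf M ((![0, 1] : Fin 2 → ZMod M) ᵥ* g) = EIS.Xf M ![0, 1] := by
    funext τ
    rw [← EIS.Xf_smul]
    have := hg (some 1) τ
    simpa [H1] using this
  have ho : addOrderOf (![0, 1] : Fin 2 → ZMod M) = M := by
    have := EIS.addOrderOf_zero_unit (M := M) 1
    simpa using this
  have ho' : addOrderOf ((![0, 1] : Fin 2 → ZMod M) ᵥ* g : Fin 2 → ZMod M) = M := by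
    rw [EIS.addOrderOf_vecMul, ho]
  have hne := EIS.ne_zero_of_addOrderOf (by omega) _ ho
  have hne' := EIS.ne_zero_of_addOrderOf (by omega) _ ho'
  have h2 := (EIS.Xf_eq_iff _ _ hne' hne).mp h1
  rcases EIS.gs_sep hM EIS.isPrimitiveRoot_zeta _ _ ho ho' h2.symm with h3 | h3
  · exact Or.inl ((EIS.zero_one_vecMul_eq_iff g).mp h3)
  · exact Or.inr ((EIS.zero_one_vecMul_eq_neg_iff g).mp h3)

/-- (`compInv g (Xf M v) = Xf M (v g⁻¹)`, `EIS.Xf_mem_HolCusp`; `S24.jfun_mem_HolCusp`.) -/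
theorem cusp1 (g : SL(2, ℤ)) (i : Option (ZMod M)ˣ) : compInv g (H1 M i) ∈ HolCusp M := by
  cases i with
  | none =>
    show compInv g jfun ∈ HolCusp M
    rw [Packages.compInv_jfun]
    exact jfun_mem_HolCusp M
  | some a =>
    have : compInv g (EIS.Xf M ![0, (a : ZMod M)])
        = EIS.Xf M ((![0, (a : ZMod M)] : Fin 2 → ZMod M) ᵥ* (g⁻¹ : SL(2, ℤ))) := by
      funext τ
      rw [compInv, EIS.Xf_smul]
    show compInv g (EIS.Xf M ![0, (a : ZMod M)]) ∈ HolCusp M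
    rw [this]
    exact EIS.Xf_mem_HolCusp _

/-- `G_{4,(0,a)}` is a modular form of weight `4` on `± Γ₁(M)`. -/
theorem isMF_G4 (a : ZMod M) : IsMF (Gpm M) 4 (EIS.G M 4 ![0, a]) := by
  refine isMF_of 4 _ (EIS.G_mdiff (by norm_num) _) (fun γ => ?_) (fun g => ?_)
  · have h := EIS.G_slash 4 (![0, a] : Fin 2 → ZMod M) (γ : SL(2, ℤ))
    have h' : EIS.G M 4 ![0, a] ∣[(4 : ℤ)] (γ : SL(2, ℤ))
        = EIS.G M 4 ((![0, a] : Fin 2 → ZMod M) ᵥ* (γ : SL(2, ℤ))) := by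
      exact_mod_cast h
    rw [h']
    rcases γ.2 with h1 | h1
    · rw [EIS.vecMul_Gamma1 _ _ h1]
    · have h2 := EIS.vecMul_Gamma1 a _ h1
      have h3 : ((![0, a] : Fin 2 → ZMod M) ᵥ* (γ : SL(2, ℤ)) : Fin 2 → ZMod M) = -![0, a] := by
        have e : ((-(γ : SL(2, ℤ)) : SL(2, ℤ)) : Matrix (Fin 2) (Fin 2) (ZMod M))
            = -((γ : SL(2, ℤ)) : Matrix (Fin 2) (Fin 2) (ZMod M)) := by
          ext i j
          simp
        rw [e, Matrix.vecMul_neg] at h2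
        exact neg_eq_iff_eq_neg.mp h2
      rw [h3]
      funext τ
      rw [EIS.G_neg]
      norm_num
  · have h := EIS.G_slash 4 (![0, a] : Fin 2 → ZMod M) g
    have h' : EIS.G M 4 ![0, a] ∣[(4 : ℤ)] g
        = EIS.G M 4 ((![0, a] : Fin 2 → ZMod M) ᵥ* g) := by
      exact_mod_cast h
    rw [h']
    exact EIS.G_isBoundedAtImInfty (by norm_num) _

/-- (`B = Δ`, `A = E₄³` resp. `(G_{4,(0,a)} / K_4) E₄²`, weight `12`; `isMF_of`, `EIS.G_slash`, `EIS.G_neg`,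
`EIS.G_isBoundedAtImInfty`, `EIS.G_mdiff`, `IsMF.of_levelOne`, `IsMF.mul`.) -/
theorem mf1 (i : Option (ZMod M)ˣ) :
    ∃ (k : ℤ) (A B : Hol), IsMF (Gpm M) k (A : ℍ → ℂ) ∧ IsMF (Gpm M) k (B : ℍ → ℂ) ∧ B ≠ 0 ∧
      ∀ τ, H1 M i τ * (B : ℍ → ℂ) τ = (A : ℍ → ℂ) τ := by
  have hB : IsMF (Gpm M) 12 (Sturm.Bd 1) := isMF_Bd
  have hB0 : (⟨Sturm.Bd 1, hB.mdiff⟩ : Hol) ≠ 0 := by
    intro h
    exact Sturm.Bd_ne_zero 1 UpperHalfPlane.I (congrFun (congrArg Subtype.val h) _)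
  have e : ∀ τ : ℍ, mulH 1 τ = τ := by
    intro τ
    apply UpperHalfPlane.ext
    simp [mulH]
  cases i with
  | none =>
    have hA : IsMF (Gpm M) 12 (Sturm.Ad 1) := isMF_Ad
    refine ⟨12, ⟨Sturm.Ad 1, hA.mdiff⟩, ⟨Sturm.Bd 1, hB.mdiff⟩, hA, hB, hB0, fun τ => ?_⟩
    have h := congrFun (Sturm.jd_mul_Bd 1) τ
    rw [Packages.jd_one] at h
    exact h
  | some a =>
    have h4 : IsMF (Gpm M) 4 ((EIS.K M 4)⁻¹ • EIS.G M 4 ![0, (a : ZMod M)]) :=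
      (isMF_G4 M a).smul _
    have h8 : IsMF (Gpm M) (4 * (2 : ℕ)) ((ModularForm.E₄ : ℍ → ℂ) ^ 2) :=
      (IsMF.of_levelOne (Γ := Gpm M) ModularForm.E₄).pow 2
    have hA : IsMF (Gpm M) 12
        (((EIS.K M 4)⁻¹ • EIS.G M 4 ![0, (a : ZMod M)]) * (ModularForm.E₄ : ℍ → ℂ) ^ 2) :=
      (h4.mul h8).cast (by norm_num)
    refine ⟨12, ⟨_, hA.mdiff⟩, ⟨Sturm.Bd 1, hB.mdiff⟩, hA, hB, hB0, fun τ => ?_⟩
    show EIS.Xf M ![0, (a : ZMod M)] τ * Sturm.Bd 1 τ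
      = ((EIS.K M 4)⁻¹ • EIS.G M 4 ![0, (a : ZMod M)]) τ * (ModularForm.E₄ τ) ^ 2
    have hD := ModularForm.discriminant_ne_zero τ
    simp only [EIS.Xf, EIS.Gn, EIS.Wf, Sturm.Bd, e, Pi.smul_apply, smul_eq_mul]
    field_simp

/-- **the generators of the function field of `X₁(M)`.** -/
def gens1 (hM : 5 ≤ M) : Gens (Gpm M) M where
  ι := Option (ZMod M)ˣ
  H := H1 M
  S := S1 M
  SQ := SQ1 M
  FC := FC1 M
  FQ := (F1Q M).E
  FC_eq := rfl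
  FQ_eq := FQ_eq1 M
  map_SQ := map_SQ1 M
  mem := mem1 M
  lau := lau1 M hM
  inv := inv1 M
  sep := sep1 M hM
  cusp := cusp1 M
  mf := mf1 M
  j0 := none
  H_j0 := rfl
  SQ_j0 := rfl

/-- the analytic model of `X₁(M)` over `ℂ`. -/
def modelC1 (hM : 5 ≤ M) : Model (Gpm M) M ℂ ↥(FC1 M) := (gens1 M hM).modelC (T_mem_Gpm M)

/-- the analytic model of `X₁(M)` over `ℚ̄`. -/
def modelB1 (hM : 5 ≤ M) : Model (Gpm M) M Qb (F1Q M).F := (gens1 M hM).modelB (T_mem_Gpm M)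

end

end Fermat.Agent.S48.X1
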