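import Fermat.Agent.S48.X1.Ker
import Fermat.Agent.ES.An.BC

/-!
# S48 / X1 : base change `D.FB = F_ℚ̄ → D.F = F_ℂ`; the two models
TASKS S48/X1-BCa (`coeffMap_mem_FC` ... `finrank_FB`), S48/X1-BCb (`mem_FQ_of_coeffMap_mem`, `exists_root_of_bc`, `modelC`, `modelB`).

PORT of `ES/An/BC.lean` (its generic lemmas `BC_*` are imported: use them).  NEW with respect to that file: the degree over `ℚ̄`
(there: `S24.finrank_FN`) is deduced from the degree over `ℂ`:
* `≤` + finiteness: a `ℚ̄(j)`-independent family of `D.FB` stays `ℂ(j)`-independent in `D.F`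
  (`BC_linearIndependent_coe_iff`, `S28.linearIndependent_coeffMap iotaC`), so has at most `finrank_FC` elements (`rank_le`);
* `≥`: the embeddings `a ↦ tay I ∘ cmp (slp (out a)⁻¹) ∘ toMer ∘ bc` of `D.FB` into `ℂ((t))` are pairwise distinct (they are distinct on
  the generators, `algHom_ext_FC`, `bc_genB`) and agree on `j`: `S24.Packages.card_le_finrank_of_embeddings` (see how `ES/An/Degree.lean`
  and `S24` use it; if its hypotheses want `K`-algebra homs use `Algebra Qb ℂ = iotaC.toAlgebra`, instance `S24.instAlgebraKbComplex`).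
-/

set_option autoImplicit false

open AlgebraicCurve ModularCurve UpperHalfPlane
open scoped MatrixGroups IntermediateField Manifold ModularForm

namespace Fermat.Agent.S48.X1

open Fermat.Agent.S24 Fermat.Agent.ES.An
open Fermat.Agent.ES (Qb)
open Fermat.Agent.S48.An1 (Model)

noncomputable section

namespace Gens

variable {Γ : Subgroup SL(2, ℤ)} [Γ.FiniteIndex] {h : ℕ} [NeZero h] (D : Gens Γ h)

theorem coeffMap_mem_FC {x : LaurentSeries Qb} (hx : x ∈ D.FQ) : coeffMap iotaC x ∈ D.FC := by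
  rw [D.FQ_eq] at hx
  induction hx using IntermediateField.adjoin_induction with
  | mem y hy =>
      obtain ⟨i, rfl⟩ := hy
      rw [D.map_SQ]
      exact D.S_mem i
  | algebraMap c =>
      rw [BC_coeffMap_algebraMap]
      exact D.FC.algebraMap_mem _
  | add x y _ _ hx hy => simpa using add_mem hx hy
  | inv x _ hx => simpa using inv_mem hx
  | mul x y _ _ hx hy => simpa using mul_mem hx hy

/-- base change of functions. -/
def bc : D.FB →+* D.F where
  toFun f := ⟨coeffMap iotaC (f : LaurentSeries Qb), D.coeffMap_mem_FC f.2⟩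
  map_one' := Subtype.ext (map_one _)
  map_mul' _ _ := Subtype.ext (map_mul _ _ _)
  map_zero' := Subtype.ext (map_zero _)
  map_add' _ _ := Subtype.ext (map_add _ _ _)

theorem coe_bc (f : D.FB) : (D.bc f : LaurentSeries ℂ) = coeffMap iotaC (f : LaurentSeries Qb) := rfl

theorem bc_algebraMap (c : Qb) :
    D.bc (algebraMap Qb D.FB c) = algebraMap ℂ D.F (algebraMap Qb ℂ c) := by
  apply Subtype.ext
  rw [coe_bc]
  exact BC_coeffMap_algebraMap c

theorem bc_genB (i : D.ι) : D.bc (D.genB i) = D.gen i :=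
  Subtype.ext (D.map_SQ i)

theorem bc_jB : D.bc D.jB = D.jC := D.bc_genB D.j0

/-- independence over `ℚ̄(j)` is preserved by base change. -/
theorem linearIndependent_bc {κ : Type*} {v : κ → D.FB} (hv : LinearIndependent Qb⟮D.jB⟯ v) :
    LinearIndependent ℂ⟮D.jC⟯ (fun i => D.bc (v i)) := by
  have h1 := (BC_linearIndependent_coe_iff D.FQ D.jB v).1 hv
  have h2 := S28.linearIndependent_coeffMap iotaC _ _ h1
  have hj : coeffMap iotaC ((D.jB : D.FB) : LaurentSeries Qb) = ((D.jC : D.F) : LaurentSeries ℂ) :=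
    congrArg Subtype.val D.bc_jB
  rw [hj] at h2
  exact (BC_linearIndependent_coe_iff D.FC D.jC _).2 h2

theorem BCa_rank_FB_le (hT : ModularGroup.T ∈ Γ) :
    Module.rank Qb⟮D.jB⟯ D.FB ≤ (Nat.card (SL(2, ℤ) ⧸ Γ) : ℕ) := by
  have hfd := D.finiteDimensional_FC hT
  refine rank_le fun s hs => ?_
  have h1 := (D.linearIndependent_bc hs).fintype_card_le_finrank
  rw [D.finrank_FC hT] at h1
  simpa using h1

theorem finiteDimensional_FB (hT : ModularGroup.T ∈ Γ) : FiniteDimensional Qb⟮D.jB⟯ D.FB := by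
  have hfree : Module.Free Qb⟮D.jB⟯ D.FB := Module.Free.of_divisionRing _ _
  rw [FiniteDimensional, ← Module.rank_lt_aleph0_iff]
  exact lt_of_le_of_lt (D.BCa_rank_FB_le hT) (Cardinal.natCast_lt_aleph0)

/-- the embeddings `D.F → ℂ((t))` indexed by the cosets. -/
def BCa_embC (a : SL(2, ℤ) ⧸ Γ) : D.F →ₐ[ℂ] LaurentSeries ℂ :=
  (tay UpperHalfPlane.I).comp ((cmp (slp (Quotient.out a)⁻¹)).comp D.toMer)

theorem BCa_embC_jC (a : SL(2, ℤ) ⧸ Γ) : D.BCa_embC a D.jC = tay UpperHalfPlane.I jMer := by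
  show tay UpperHalfPlane.I (cmp (slp (Quotient.out a)⁻¹) (D.toMer D.jC)) = _
  rw [D.toMer_jC, Degree.cmp_jMer]

theorem BCa_embC_injective : Function.Injective D.BCa_embC := by
  intro a b hab
  have h1 : ∀ f : D.F, cmp (slp (Quotient.out a)⁻¹) (D.toMer f)
      = cmp (slp (Quotient.out b)⁻¹) (D.toMer f) := by
    intro f
    have := DFunLike.congr_fun hab f
    exact (tay UpperHalfPlane.I).toRingHom.injective this
  have h2 : (Quotient.out a)⁻¹ * Quotient.out b ∈ Γ := by
    apply D.mem_of_cmp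
    intro f
    rw [map_mul, cmp_mul, h1 f, ← cmp_mul, ← map_mul, inv_mul_cancel, map_one, cmp_one]
  have h3 : ((Quotient.out a : SL(2, ℤ)) : SL(2, ℤ) ⧸ Γ) = ((Quotient.out b : SL(2, ℤ)) : SL(2, ℤ) ⧸ Γ) :=
    QuotientGroup.eq.mpr h2
  rwa [QuotientGroup.out_eq', QuotientGroup.out_eq'] at h3

/-- the embeddings `D.FB → ℂ((t))` indexed by the cosets. -/
def BCa_embB (a : SL(2, ℤ) ⧸ Γ) : D.FB →ₐ[Qb] LaurentSeries ℂ where
  toRingHom := (D.BCa_embC a : D.F →+* LaurentSeries ℂ).comp D.bc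
  commutes' c := by
    show D.BCa_embC a (D.bc (algebraMap Qb D.FB c)) = _
    rw [D.bc_algebraMap, AlgHom.commutes]
    rw [HahnSeries.algebraMap_apply', HahnSeries.algebraMap_apply', PowerSeries.algebraMap_apply,
      PowerSeries.algebraMap_apply]
    rfl

theorem BCa_embB_apply (a : SL(2, ℤ) ⧸ Γ) (f : D.FB) : D.BCa_embB a f = D.BCa_embC a (D.bc f) := rfl

theorem BCa_embB_injective : Function.Injective D.BCa_embB := by
  intro a b hab
  apply D.BCa_embC_injective
  apply D.algHom_ext_FC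
  intro i
  rw [← D.bc_genB, ← BCa_embB_apply, ← BCa_embB_apply, hab]

theorem finrank_FB (hT : ModularGroup.T ∈ Γ) :
    Module.finrank Qb⟮D.jB⟯ D.FB = Nat.card (SL(2, ℤ) ⧸ Γ) := by
  have hfd := D.finiteDimensional_FB hT
  apply le_antisymm
  · have h := D.BCa_rank_FB_le hT
    rw [← Module.finrank_eq_rank] at h
    exact_mod_cast h
  · exact Packages.card_le_finrank_of_embeddings D.jB D.BCa_embB D.BCa_embB_injective
      (fun a b => by rw [BCa_embB_apply, BCa_embB_apply, D.bc_jB, BCa_embC_jC, BCa_embC_jC])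

theorem mem_FQ_of_coeffMap_mem (hT : ModularGroup.T ∈ Γ) (x : LaurentSeries Qb)
    (hx : coeffMap iotaC x ∈ D.FC) : x ∈ D.FQ := by
  by_contra hxF
  have hfd1 := D.finiteDimensional_FB hT
  have hfd2 := D.finiteDimensional_FC hT
  have hfree : Module.Free Qb⟮D.jB⟯ D.FB := Module.Free.of_divisionRing _ _
  let b := Module.finBasis Qb⟮D.jB⟯ D.FB
  have hb : LinearIndependent Qb⟮((D.jB : D.FB) : LaurentSeries Qb)⟯
      (fun i => ((b i : D.FB) : LaurentSeries Qb)) :=
    (BC_linearIndependent_coe_iff D.FQ D.jB b).1 b.linearIndependent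
  have hle : Qb⟮((D.jB : D.FB) : LaurentSeries Qb)⟯ ≤ D.FQ := by
    rw [IntermediateField.adjoin_le_iff]
    rintro _ rfl
    exact D.jB.2
  have hsub : ∀ z : LaurentSeries Qb, z ∈ Submodule.span Qb⟮((D.jB : D.FB) : LaurentSeries Qb)⟯
      (Set.range fun i => ((b i : D.FB) : LaurentSeries Qb)) → z ∈ D.FQ := by
    intro z hmem
    induction hmem using Submodule.span_induction with
    | mem z hz =>
      obtain ⟨i, rfl⟩ := hz
      exact (b i).2
    | zero => exact zero_mem _
    | add z w _ _ hz hw => exact add_mem hz hw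
    | smul c z _ hz => exact mul_mem (hle c.2) hz
  have hspan : x ∉ Submodule.span Qb⟮((D.jB : D.FB) : LaurentSeries Qb)⟯
      (Set.range fun i => ((b i : D.FB) : LaurentSeries Qb)) := fun hmem => hxF (hsub x hmem)
  have hy := hb.option hspan
  have hz := S28.linearIndependent_coeffMap iotaC _ _ hy
  have hj : coeffMap iotaC ((D.jB : D.FB) : LaurentSeries Qb) = ((D.jC : D.F) : LaurentSeries ℂ) :=
    congrArg Subtype.val D.bc_jB
  rw [hj] at hz
  have hmem : ∀ o : Option (Fin (Module.finrank Qb⟮D.jB⟯ D.FB)),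
      coeffMap iotaC (Option.casesOn' o x fun i => ((b i : D.FB) : LaurentSeries Qb))
        ∈ D.FC := by
    intro o
    cases o with
    | none => exact hx
    | some i => exact D.coeffMap_mem_FC (b i).2
  have hz' : LinearIndependent ℂ⟮D.jC⟯ (fun o => (⟨_, hmem o⟩ : D.F)) :=
    (BC_linearIndependent_coe_iff _ D.jC _).2 hz
  have hcard := hz'.fintype_card_le_finrank
  rw [D.finrank_FC hT, Fintype.card_option, Fintype.card_fin, D.finrank_FB hT] at hcard
  omega

theorem exists_root_of_bc (hT : ModularGroup.T ∈ Γ) (m : ℕ) (hm : 0 < m) (f : D.FB) (g : D.F)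
    (hfg : D.bc f = g ^ m) : ∃ g₀ : D.FB, f = g₀ ^ m := by
  have h1 : coeffMap iotaC (f : LaurentSeries Qb) = (g : LaurentSeries ℂ) ^ m :=
    congrArg Subtype.val hfg
  have hord : (m : ℤ) ∣ (f : LaurentSeries Qb).order := by
    rw [← BC_order_coeffMap iotaC, h1, HahnSeries.order_pow, nsmul_eq_mul]
    exact dvd_mul_right _ _
  obtain ⟨w, hw⟩ := BC_exists_root m hm (f : LaurentSeries Qb) hord
  have h2 : (coeffMap iotaC w) ^ m = (g : LaurentSeries ℂ) ^ m := by rw [← map_pow, hw, h1]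
  have h3 : coeffMap iotaC w ∈ D.FC := by
    rcases eq_or_ne (g : LaurentSeries ℂ) 0 with h0 | h0
    · rw [h0, zero_pow hm.ne', pow_eq_zero_iff hm.ne'] at h2
      rw [h2]
      exact zero_mem _
    · have h4 : (coeffMap iotaC w / (g : LaurentSeries ℂ)) ^ m = 1 := by
        rw [div_pow, h2, div_self (pow_ne_zero _ h0)]
      obtain ⟨c, hc⟩ := BC_const_of_pow_eq_one (K := ℂ) hm h4
      have h5 : coeffMap iotaC w = algebraMap ℂ (LaurentSeries ℂ) c * (g : LaurentSeries ℂ) := by
        rw [hc, div_mul_cancel₀ _ h0]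
      rw [h5]
      exact mul_mem (IntermediateField.algebraMap_mem _ _) g.2
  exact ⟨⟨w, D.mem_FQ_of_coeffMap_mem hT w h3⟩, Subtype.ext hw.symm⟩

/-- the model over `ℂ`. -/
def modelC (hT : ModularGroup.T ∈ Γ) : Model Γ h ℂ D.F where
  φ := (D.toMer : D.F →+* Mer)
  φ_alg c := D.toMer.commutes c
  j := D.jC
  φ_j := D.toMer_jC
  tr := D.transcendental_jC
  fin := D.finiteDimensional_FC hT
  deg := D.finrank_FC hT
  inv := D.cmp_toMer
  sep := D.mem_of_cmp
  cusp := D.cmp_toMer_mem_MerCusp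

/-- the model over `ℚ̄`. -/
def modelB (hT : ModularGroup.T ∈ Γ) : Model Γ h Qb D.FB where
  φ := (D.toMer : D.F →+* Mer).comp D.bc
  φ_alg c := by
    rw [RingHom.comp_apply, bc_algebraMap]
    exact D.toMer.commutes _
  j := D.jB
  φ_j := by
    rw [RingHom.comp_apply, D.bc_jB]
    exact D.toMer_jC
  tr := D.transcendental_jB
  fin := D.finiteDimensional_FB hT
  deg := D.finrank_FB hT
  inv γ f := D.cmp_toMer γ (D.bc f)
  sep g hg := by
    apply D.mem_of_cmp g
    have h1 : (cmp (slp g)).comp D.toMer = D.toMer := by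
      apply D.algHom_ext_FC
      intro i
      rw [← bc_genB]
      exact hg (D.genB i)
    intro f
    exact AlgHom.congr_fun h1 f
  cusp g f := D.cmp_toMer_mem_MerCusp g (D.bc f)

end Gens

end

end Fermat.Agent.S48.X1
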