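import Fermat.Agent.S48.X1.F1Q
import Fermat.Agent.S48.X1.CuspPoly
import Fermat.Agent.S48.C1.Export

/-!
# S48 / X1 : CRUX for `F1(M)` from the abstract CRUX (C1), the cusp polynomials (CuspPoly) and the packs
-/

set_option autoImplicit false

open AlgebraicCurve ModularCurve Fermat.Agent.ES

namespace Fermat.Agent.S48.X1

/-- **CRUX for `F1(M)`** at `p ∤ M`, exponent `l ≠ p` prime, given the packs of Taylor embeddings. -/
theorem crux1_F1Q (M : ℕ) [NeZero M] (hM : 5 ≤ M)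
    (hpack : C1.HasPacks (C1.F0 Qb (G1 M)) (C1.jF0 Qb (G1 M)) (fun _ => True))
    (p l : ℕ) (hp : p.Prime) (hpM : ¬ p ∣ M) (hl : l.Prime) (hlp : l ≠ p) :
    B1.Crux1 (F1Q M) p l :=
  C1.crux1_of_data (F1Q M) (G1 M) (finite_G1 M) rfl
    (by rintro _ ⟨a, rfl⟩; exact C1.NFCoeff.of_fgCoeff (fgCoeff_xg _)) M p l hp hl hlp
    (by rintro A hA _ ⟨a, rfl⟩; exact hasCuspPolyQ M hM p hp hpM A hA (zM M) (iotaC_zM M) a)
    hpack

end Fermat.Agent.S48.X1
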