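import Fermat.Agent.S48.X1.Gens
import Fermat.Agent.ES.An.Degree

/-!
# S48 / X1 : `[D.F : ℂ(j)] = [SL₂(ℤ) : Γ]`, and every quotient of modular forms on `Γ` lies in `D.F`
TASK S48/X1-Degree.

PORT of `ES/An/Degree.lean` (dictionary: header of `X1/Gens.lean`; `XN N ↦ SL(2, ℤ) ⧸ Γ`, `isMFr_dependence N ↦ isMFr_dependence hT`,
`mem_Gamma0_of_cmp ↦ D.mem_of_cmp`; `Nat.card (SL(2, ℤ) ⧸ Γ) = Γ.index` is `Subgroup.index` by definition).  Copy the proofs.
-/

set_option autoImplicit false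
set_option linter.unusedSectionVars false

open AlgebraicCurve ModularCurve UpperHalfPlane
open scoped MatrixGroups IntermediateField Manifold ModularForm

namespace Fermat.Agent.S48.X1

open Fermat.Agent.S24 Fermat.Agent.ES.An
open Fermat.Agent.ES (Qb)

noncomputable section

namespace Gens

variable {Γ : Subgroup SL(2, ℤ)} [Γ.FiniteIndex] {h : ℕ} [NeZero h] (D : Gens Γ h)

namespace Degree

/-- `toMer` maps `ℂ(j) ⊆ D.F` onto `ℂ(j) ⊆ Mer`. -/
theorem map_adjoin_jC : (ℂ⟮D.jC⟯).map D.toMer = ℂ⟮jMer⟯ := by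
  rw [IntermediateField.adjoin_map, Set.image_singleton, toMer_jC]

theorem exists_preimage (r : ℂ⟮jMer⟯) : ∃ c : ℂ⟮D.jC⟯, D.toMer (c : D.F) = (r : Mer) := by
  have h : (r : Mer) ∈ (ℂ⟮D.jC⟯).map D.toMer := by
    rw [map_adjoin_jC]; exact r.2
  obtain ⟨c, hc, hcr⟩ := h
  exact ⟨⟨c, hc⟩, hcr⟩

/-- a section of `toMer : ℂ(j) → ℂ(j)`. -/
def sec (r : ℂ⟮jMer⟯) : ℂ⟮D.jC⟯ := (exists_preimage D r).choose

theorem toMer_sec (r : ℂ⟮jMer⟯) : D.toMer (sec D r : D.F) = (r : Mer) :=
  (exists_preimage D r).choose_spec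

end Degree

open Degree

/-- linear independence over `ℂ(j)` is preserved by `toMer`. -/
theorem linearIndependent_toMer {ι : Type*} {v : ι → D.F}
    (hv : LinearIndependent ℂ⟮D.jC⟯ v) : LinearIndependent ℂ⟮jMer⟯ (fun i => D.toMer (v i)) := by
  refine hv.map_of_injective_injective (sec D) (D.toMer.toRingHom.toAddMonoidHom) ?_ ?_ ?_
  · intro r hr
    have h := toMer_sec D r
    rw [hr] at h
    apply Subtype.ext
    rw [← h]
    simp
  · intro m hm
    exact (map_eq_zero D.toMer).mp hm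
  · intro r m
    show D.toMer (sec D r • m) = r • D.toMer m
    rw [Algebra.smul_def, Algebra.smul_def, map_mul]
    congr 1
    exact toMer_sec D r

namespace Degree

theorem not_linearIndependent_FC (hT : ModularGroup.T ∈ Γ) (v : Fin (Γ.index + 1) → D.F) :
    ¬ LinearIndependent ℂ⟮D.jC⟯ v := fun hv =>
  isMFr_dependence hT _ (fun i => D.isMFr_toMer (v i)) (D.linearIndependent_toMer hv)

end Degree

theorem rank_FC_le (hT : ModularGroup.T ∈ Γ) : Module.rank ℂ⟮D.jC⟯ D.F ≤ (Γ.index : ℕ) := by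
  refine rank_le fun s hs => ?_
  by_contra hcard
  rw [not_le] at hcard
  have hc : Γ.index + 1 ≤ Fintype.card s := by simpa using hcard
  obtain ⟨e⟩ : Nonempty (Fin (Γ.index + 1) ↪ s) :=
    Function.Embedding.nonempty_of_card_le (by simpa using hc)
  exact not_linearIndependent_FC D hT _ (hs.comp e e.injective)

namespace Degree

/-- the embeddings `D.F → ℂ((t))` indexed by the cosets. -/
def emb (a : SL(2, ℤ) ⧸ Γ) : D.F →ₐ[ℂ] LaurentSeries ℂ :=
  (tay UpperHalfPlane.I).comp ((cmp (slp (Quotient.out a)⁻¹)).comp D.toMer)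

theorem emb_jC (a : SL(2, ℤ) ⧸ Γ) : emb D a D.jC = tay UpperHalfPlane.I jMer := by
  show tay UpperHalfPlane.I (cmp (slp (Quotient.out a)⁻¹) (D.toMer D.jC)) = _
  rw [toMer_jC, Fermat.Agent.ES.An.Degree.cmp_jMer]

theorem emb_injective : Function.Injective (emb D) := by
  intro a b hab
  have h1 : ∀ f : D.F, cmp (slp (Quotient.out a)⁻¹) (D.toMer f)
      = cmp (slp (Quotient.out b)⁻¹) (D.toMer f) := by
    intro f
    have := DFunLike.congr_fun hab f
    exact (tay UpperHalfPlane.I).toRingHom.injective this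
  have h2 : (Quotient.out a)⁻¹ * Quotient.out b ∈ Γ := by
    apply D.mem_of_cmp
    intro f
    rw [map_mul, cmp_mul, h1 f, ← cmp_mul, ← map_mul, inv_mul_cancel, map_one, cmp_one]
  have h3 : ((Quotient.out a : SL(2, ℤ)) : SL(2, ℤ) ⧸ Γ) = ((Quotient.out b : SL(2, ℤ)) : SL(2, ℤ) ⧸ Γ) :=
    QuotientGroup.eq.mpr h2
  rwa [QuotientGroup.out_eq', QuotientGroup.out_eq'] at h3

end Degree

theorem finiteDimensional_FC (hT : ModularGroup.T ∈ Γ) : FiniteDimensional ℂ⟮D.jC⟯ D.F := by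
  have hfree : Module.Free ℂ⟮D.jC⟯ D.F := Module.Free.of_divisionRing _ _
  rw [FiniteDimensional, ← Module.rank_lt_aleph0_iff]
  exact lt_of_le_of_lt (D.rank_FC_le hT) (Cardinal.natCast_lt_aleph0)

theorem finrank_FC (hT : ModularGroup.T ∈ Γ) :
    Module.finrank ℂ⟮D.jC⟯ D.F = Nat.card (SL(2, ℤ) ⧸ Γ) := by
  have hfd := D.finiteDimensional_FC hT
  apply le_antisymm
  · have h := D.rank_FC_le hT
    rw [← Module.finrank_eq_rank] at h
    have h' : Module.finrank ℂ⟮D.jC⟯ D.F ≤ Γ.index := by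
      exact_mod_cast h
    exact h'
  · exact Packages.card_le_finrank_of_embeddings D.jC (emb D) (emb_injective D)
      (fun a b => by rw [Gens.Degree.emb_jC, Gens.Degree.emb_jC])

theorem mem_range_of_isMFr (hT : ModularGroup.T ∈ Γ) (u : Mer) (hu : IsMFr Γ u) :
    ∃ f : D.F, D.toMer f = u := by
  have hfd := D.finiteDimensional_FC hT
  have hn : Module.finrank ℂ⟮D.jC⟯ D.F = Γ.index := D.finrank_FC hT
  have hfree : Module.Free ℂ⟮D.jC⟯ D.F := Module.Free.of_divisionRing _ _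
  let b := Module.finBasisOfFinrankEq ℂ⟮D.jC⟯ D.F hn
  have hli : LinearIndependent ℂ⟮jMer⟯ (fun i => D.toMer (b i)) :=
    D.linearIndependent_toMer b.linearIndependent
  by_cases hu' : u ∈ Submodule.span ℂ⟮jMer⟯ (Set.range fun i => D.toMer (b i))
  · obtain ⟨c, hc⟩ := (Submodule.mem_span_range_iff_exists_fun _).mp hu'
    refine ⟨∑ i, sec D (c i) • b i, ?_⟩
    rw [map_sum, ← hc]
    refine Finset.sum_congr rfl fun i _ => ?_
    rw [Algebra.smul_def, Algebra.smul_def, map_mul]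
    congr 1
    exact toMer_sec D (c i)
  · exfalso
    have hcons : LinearIndependent ℂ⟮jMer⟯
        (Fin.cons u (fun i => D.toMer (b i)) : Fin (Γ.index + 1) → Mer) :=
      linearIndependent_finCons.mpr ⟨hli, hu'⟩
    refine isMFr_dependence hT _ (fun i => ?_) hcons
    refine Fin.cases ?_ (fun k => ?_) i
    · simpa using hu
    · simpa using D.isMFr_toMer (b k)

end Gens

end

end Fermat.Agent.S48.X1
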