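import Fermat.Agent.S48.X1.SturmDep
import Fermat.Agent.ES.An.ToMer
import Fermat.Agent.S28.Reduce

/-!
# S48 / X1 : a modular function field given by generators; the embedding `toMer`
TASK S48/X1-ToMer.

`D : Gens Γ h` = a family of holomorphic functions `D.H i` on `ℍ`, `Γ`-invariant, meromorphic at the cusps (of width `∣ h`),
separating `Γ`, quotients of modular forms on `Γ`, with `q`-expansions `D.S i ∈ ℂ((q))`, which are the images of `D.SQ i ∈ ℚ̄((q))`;
one of them is `j`.   `D.FC = ℂ(D.S i) ⊆ ℂ((q))`, `D.FQ = ℚ̄(D.SQ i) ⊆ ℚ̄((q))`.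

This file is the PORT of `ES/An/ToMer.lean`, with the DICTIONARY
`FC N ↦ D.F`, `Dv N ↦ D.ι`, `jSerC d.1 ↦ D.S i`, `jFC N d.1 d.2 ↦ D.gen i`, `jdMer d.1 ↦ D.mer i`, `jdHol ↦ D.hol`,
`jC N ↦ D.jC`, `FC_eq_adjoin ↦ D.FC_eq`, `Γ₀(N) ↦ Γ`, `MerCusp N ↦ MerCusp h`, `IsMFr N ↦ IsMFr Γ`,
`jd_smul_of_mem_Gamma0 ↦ D.inv`, `mem_Gamma0_of_jd_smul ↦ D.sep`, `compInv_jd_mem_HolCusp ↦ D.cusp`, `laurent_jd ↦ D.lau`.
Copy the proofs.
-/

set_option autoImplicit false

open AlgebraicCurve ModularCurve UpperHalfPlane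
open scoped MatrixGroups IntermediateField Manifold ModularForm

namespace Fermat.Agent.S48.X1

open Fermat.Agent.S24 Fermat.Agent.ES.An
open Fermat.Agent.ES (Qb)

noncomputable section

/-- Generators of a modular function field for `Γ`. -/
structure Gens (Γ : Subgroup SL(2, ℤ)) (h : ℕ) [NeZero h] where
  /-- index set of the generators -/
  ι : Type
  /-- the analytic generators -/
  H : ι → ℍ → ℂ
  /-- their `q`-expansions -/
  S : ι → LaurentSeries ℂ
  /-- the `q`-expansions over `ℚ̄` -/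
  SQ : ι → LaurentSeries Qb
  /-- the function field over `ℂ` -/
  FC : IntermediateField ℂ (LaurentSeries ℂ)
  /-- the function field over `ℚ̄` -/
  FQ : IntermediateField Qb (LaurentSeries Qb)
  FC_eq : FC = IntermediateField.adjoin ℂ (Set.range S)
  FQ_eq : FQ = IntermediateField.adjoin Qb (Set.range SQ)
  map_SQ : ∀ i, coeffMap iotaC (SQ i) = S i
  mem : ∀ i, H i ∈ HolCusp 1
  lau : ∀ i, laurent 1 ⟨H i, mem i⟩ = S i
  inv : ∀ γ ∈ Γ, ∀ i τ, H i (γ • τ) = H i τ
  sep : ∀ g : SL(2, ℤ), (∀ i τ, H i (g • τ) = H i τ) → g ∈ Γ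
  cusp : ∀ (g : SL(2, ℤ)) (i : ι), compInv g (H i) ∈ HolCusp h
  mf : ∀ i, ∃ (k : ℤ) (A B : Hol), IsMF Γ k (A : ℍ → ℂ) ∧ IsMF Γ k (B : ℍ → ℂ) ∧ B ≠ 0 ∧
    ∀ τ, H i τ * (B : ℍ → ℂ) τ = (A : ℍ → ℂ) τ
  /-- the index of `j` -/
  j0 : ι
  H_j0 : H j0 = jfun
  SQ_j0 : SQ j0 = jqModC Qb

namespace Gens

variable {Γ : Subgroup SL(2, ℤ)} {h : ℕ} [NeZero h] (D : Gens Γ h)

/-- the function field over `ℂ`, as a type. -/
abbrev F : Type := ↥D.FC

/-- the function field over `ℚ̄`, as a type. -/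
abbrev FB : Type := ↥D.FQ

theorem S_mem (i : D.ι) : D.S i ∈ D.FC := by
  rw [D.FC_eq]
  exact IntermediateField.subset_adjoin _ _ ⟨i, rfl⟩

theorem SQ_mem (i : D.ι) : D.SQ i ∈ D.FQ := by
  rw [D.FQ_eq]
  exact IntermediateField.subset_adjoin _ _ ⟨i, rfl⟩

/-- the generators in `D.F`. -/
def gen (i : D.ι) : D.F := ⟨D.S i, D.S_mem i⟩

/-- the generators in `D.FB`. -/
def genB (i : D.ι) : D.FB := ⟨D.SQ i, D.SQ_mem i⟩

/-- `j ∈ D.F`. -/
def jC : D.F := D.gen D.j0

/-- `j ∈ D.FB`. -/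
def jB : D.FB := D.genB D.j0

/-- the generators in `Hol`. -/
def hol (i : D.ι) : Hol := ⟨D.H i, (D.mem i).1⟩

/-- the generators in `Mer`. -/
def mer (i : D.ι) : Mer := algebraMap Hol Mer (D.hol i)

theorem S_j0 : D.S D.j0 = jqModC ℂ := by
  rw [← D.map_SQ, D.SQ_j0, coeffMap_jqModC]

theorem mer_j0 : D.mer D.j0 = jMer := by
  rw [mer, jMer, jdMer]
  refine congrArg (algebraMap Hol Mer) (Subtype.ext ?_)
  show D.H D.j0 = jd 1
  rw [D.H_j0, Packages.jd_one]

theorem hasLau_mer (i : D.ι) : HasLau 1 (D.mer i) (D.S i) := by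
  refine ⟨algebraMap (HolCusp 1) (MerC 1) ⟨D.H i, D.mem i⟩, ?_, ?_⟩
  · rw [cuspToMer_algebraMap]
    rfl
  · rw [lauC_algebraMap, D.lau]

theorem FC_le_fieldRange : D.FC ≤ (lauC 1).fieldRange := by
  rw [D.FC_eq, IntermediateField.adjoin_le_iff]
  rintro _ ⟨i, rfl⟩
  refine ⟨algebraMap (HolCusp 1) (MerC 1) ⟨D.H i, D.mem i⟩, ?_⟩
  show lauC 1 _ = _
  rw [lauC_algebraMap, D.lau]

/-- generic induction principle for a field generated by a family. -/
theorem adjoin_range_induction {K L : Type*} [Field K] [Field L] [Algebra K L] {ι : Type*}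
    (S : ι → L) (E : IntermediateField K L) (hE : E = IntermediateField.adjoin K (Set.range S))
    {P : E → Prop} (hj : ∀ i (hi : S i ∈ E), P ⟨S i, hi⟩)
    (hc : ∀ c : K, P (algebraMap K E c)) (hadd : ∀ f g, P f → P g → P (f + g))
    (hmul : ∀ f g, P f → P g → P (f * g)) (hinv : ∀ f, P f → P f⁻¹) (f : E) : P f := by
  subst hE
  obtain ⟨x, hx⟩ := f
  induction hx using IntermediateField.adjoin_induction with
  | mem x hx =>
    obtain ⟨i, rfl⟩ := hx
    exact hj i _
  | algebraMap r => exact hc r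
  | add x y hx hy ihx ihy => exact hadd _ _ ihx ihy
  | inv x hx ih => exact hinv _ ih
  | mul x y hx hy ihx ihy => exact hmul _ _ ihx ihy

/-- Induction principle for `D.F`. -/
theorem FC_induction {P : D.F → Prop} (hj : ∀ i : D.ι, P (D.gen i))
    (hc : ∀ c : ℂ, P (algebraMap ℂ D.F c)) (hadd : ∀ f g, P f → P g → P (f + g))
    (hmul : ∀ f g, P f → P g → P (f * g)) (hinv : ∀ f, P f → P f⁻¹) (f : D.F) : P f :=
  adjoin_range_induction D.S D.FC D.FC_eq (fun i _ => hj i) hc hadd hmul hinv f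

/-- Induction principle for `D.FB`. -/
theorem FQ_induction {P : D.FB → Prop} (hj : ∀ i : D.ι, P (D.genB i))
    (hc : ∀ c : Qb, P (algebraMap Qb D.FB c)) (hadd : ∀ f g, P f → P g → P (f + g))
    (hmul : ∀ f g, P f → P g → P (f * g)) (hinv : ∀ f, P f → P f⁻¹) (f : D.FB) : P f :=
  adjoin_range_induction D.SQ D.FQ D.FQ_eq (fun i _ => hj i) hc hadd hmul hinv f

/-- existence of the embedding, together with the `q`-expansion principle. -/
theorem exists_toMer : ∃ φ : D.F →ₐ[ℂ] Mer, ∀ f : D.F, HasLau 1 (φ f) (f : LaurentSeries ℂ) := by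
  refine ⟨(cuspToMer 1).comp ((AlgEquiv.ofInjectiveField (lauC 1)).symm.toAlgHom.comp
    (IntermediateField.inclusion D.FC_le_fieldRange)), fun f => ?_⟩
  refine ⟨(AlgEquiv.ofInjectiveField (lauC 1)).symm
    (IntermediateField.inclusion D.FC_le_fieldRange f), rfl, ?_⟩
  have h := (AlgEquiv.ofInjectiveField (lauC 1)).apply_symm_apply
    (IntermediateField.inclusion D.FC_le_fieldRange f)
  exact congrArg Subtype.val h

/-- The embedding of the function field over `ℂ` into the meromorphic functions. -/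
def toMer : D.F →ₐ[ℂ] Mer := D.exists_toMer.choose

theorem hasLau_toMer (f : D.F) : HasLau 1 (D.toMer f) (f : LaurentSeries ℂ) :=
  D.exists_toMer.choose_spec f

theorem toMer_add (f g : D.F) : D.toMer (f + g) = D.toMer f + D.toMer g :=
  RingHom.map_add D.toMer.toRingHom f g

theorem toMer_gen (i : D.ι) : D.toMer (D.gen i) = D.mer i :=
  (D.hasLau_toMer (D.gen i)).eq_of_eq (D.hasLau_mer i)

theorem toMer_jC : D.toMer D.jC = jMer := by
  rw [jC, toMer_gen, mer_j0]

theorem toMer_injective : Function.Injective D.toMer := D.toMer.toRingHom.injective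

theorem algHom_ext_FC {L : Type*} [Field L] [Algebra ℂ L] (σ τ : D.F →ₐ[ℂ] L)
    (h : ∀ i : D.ι, σ (D.gen i) = τ (D.gen i)) : σ = τ := by
  ext f
  induction f using D.FC_induction with
  | hj d => exact h d
  | hc c => rw [AlgHom.commutes, AlgHom.commutes]
  | hadd f g hf hg => rw [map_add, map_add, hf, hg]
  | hmul f g hf hg => rw [map_mul, map_mul, hf, hg]
  | hinv f hf => rw [map_inv₀, map_inv₀, hf]

theorem transcendental_jC : Transcendental ℂ D.jC := by
  rw [transcendental_iff]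
  intro p hp
  apply (transcendental_iff.mp (Fermat.Agent.S28.transcendental_jqModC ℂ)) p
  have h := congrArg D.FC.val hp
  rw [← Polynomial.aeval_algHom_apply, map_zero] at h
  have e : D.FC.val D.jC = jqModC ℂ := D.S_j0
  rwa [e] at h

theorem transcendental_jB : Transcendental Qb D.jB := by
  rw [transcendental_iff]
  intro p hp
  apply (transcendental_iff.mp (Fermat.Agent.S28.transcendental_jqModC Qb)) p
  have h := congrArg D.FQ.val hp
  rw [← Polynomial.aeval_algHom_apply, map_zero] at h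
  have e : D.FQ.val D.jB = jqModC Qb := D.SQ_j0
  rwa [e] at h

/-- invariance under `Γ`. -/
theorem cmp_toMer (γ : Γ) (f : D.F) : cmp (slp (γ : SL(2, ℤ))) (D.toMer f) = D.toMer f := by
  induction f using D.FC_induction with
  | hj i =>
    rw [toMer_gen, mer, cmp_algebraMap]
    refine congrArg (algebraMap Hol Mer) (Subtype.ext ?_)
    funext τ
    exact D.inv γ γ.2 i τ
  | hc c => rw [AlgHom.commutes, AlgHom.commutes]
  | hadd f g hf hg => rw [toMer_add, map_add, hf, hg]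
  | hmul f g hf hg => rw [map_mul D.toMer f g, map_mul, hf, hg]
  | hinv f hf => rw [map_inv₀ D.toMer f, map_inv₀, hf]

theorem mem_of_cmp (g : SL(2, ℤ)) (hg : ∀ f : D.F, cmp (slp g) (D.toMer f) = D.toMer f) : g ∈ Γ := by
  apply D.sep g
  intro i τ
  have h1 := hg (D.gen i)
  rw [toMer_gen, mer, cmp_algebraMap] at h1
  have h2 := IsFractionRing.injective Hol Mer h1
  exact congrFun (congrArg Subtype.val h2) τ

theorem cmp_toMer_mem_MerCusp (g : SL(2, ℤ)) (f : D.F) : cmp (slp g) (D.toMer f) ∈ MerCusp h := by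
  induction f using D.FC_induction with
  | hj i =>
    rw [toMer_gen, mer, cmp_algebraMap]
    refine ⟨algebraMap (HolCusp h) (MerC h) ⟨compInv g⁻¹ (D.H i), D.cusp g⁻¹ i⟩, ?_⟩
    show cuspToMer h _ = _
    rw [cuspToMer_algebraMap]
    refine congrArg (algebraMap Hol Mer) (Subtype.ext ?_)
    funext τ
    show D.H i ((g⁻¹)⁻¹ • τ) = D.H i (slp g • τ)
    rw [inv_inv, slp_smul]
  | hc c =>
    rw [AlgHom.commutes, AlgHom.commutes]
    exact IntermediateField.algebraMap_mem _ _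
  | hadd f g hf hg => rw [toMer_add, map_add]; exact add_mem hf hg
  | hmul f g hf hg => rw [map_mul D.toMer f g, map_mul]; exact mul_mem hf hg
  | hinv f hf => rw [map_inv₀ D.toMer f, map_inv₀]; exact inv_mem hf

theorem isMFr_toMer (f : D.F) : IsMFr Γ (D.toMer f) := by
  induction f using D.FC_induction with
  | hj i =>
    rw [toMer_gen]
    obtain ⟨k, A, B, hA, hB, hB0, hrel⟩ := D.mf i
    refine ⟨k, A, B, hA, hB, hB0, ?_⟩
    rw [eq_div_iff ((map_ne_zero_iff _ (IsFractionRing.injective Hol Mer)).mpr hB0), mer,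
      ← map_mul]
    exact congrArg (algebraMap Hol Mer) (Subtype.ext (funext hrel))
  | hc c => rw [AlgHom.commutes]; exact IsMFr.const c
  | hadd f g hf hg => rw [toMer_add]; exact hf.add hg
  | hmul f g hf hg => rw [map_mul D.toMer f g]; exact hf.mul hg
  | hinv f hf => rw [map_inv₀ D.toMer f]; exact hf.inv

end Gens

end

end Fermat.Agent.S48.X1
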